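import Fermat.Agent.Lib.Red.H290.RedHom
import Fermat.Agent.S05.C1b

/-!
# S15, piece P-LOC (helper242), part 3: the reduction homomorphism on `E⁰`

`A : ValuationSubring K`, `φ : A →+* κ` with kernel the maximal ideal, `W` a Weierstrass curve over
`K` with coefficients in `A`, reducing to `Wκ` (NO hypothesis on `Wκ.Δ`: bad reduction allowed).

* `InE0 A φ Wκ P` : `P` is `0`, or non-integral (in the kernel of reduction `E₁`), or integral with
  NONSINGULAR reduction;
* `red0 A φ Wκ : W.Point → Wκ.Point` : the reduction map (zero outside `E⁰`);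
* `inE0_add`, `inE0_neg`, `inE0_nsmul` : `E⁰` is a subgroup;
* `red0_add`, `red0_neg`, `red0_nsmul` : `red0` is additive on `E⁰`;
* `red0_eq_zero_iff` : the kernel of `red0` on `E⁰` is `E₁`;
* `addOrderOf_red0` : a point of `E⁰` of prime order `p`, `p` a unit of `A`, reduces to a point
  of order `p`.

This generalises `Fermat.Agent.Lib.Red.H290` (good reduction) to the nonsingular locus of a
possibly singular reduction.
-/

set_option autoImplicit false

namespace Fermat.Agent.S15.H242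

open WeierstrassCurve WeierstrassCurve.Affine
open Fermat.Agent.S05.SameRed (IntegralCoeffs InKer inKer_zero inKer_some
  inKer_sub_of_same_reduction)
open Fermat.Agent.Lib.Red.H290

variable {K : Type*} [Field K] [DecidableEq K] {κ : Type*} [Field κ] [DecidableEq κ]
variable {A : ValuationSubring K} {φ : A →+* κ} {W : Affine K} {Wκ : Affine κ}

/-- `P` lies in `E⁰`: either `P` is not integral (or `P = 0`), or its reduction is a nonsingular
point of the reduced cubic. -/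
def InE0 (A : ValuationSubring K) (φ : A →+* κ) (Wκ : Affine κ) : W.Point → Prop
  | .zero => True
  | .some x y _ => x ∈ A → Wκ.Nonsingular (rd A φ x) (rd A φ y)

/-- The reduction map, defined to be `0` outside `E⁰`. -/
noncomputable def red0 (A : ValuationSubring K) (φ : A →+* κ) (Wκ : Affine κ) :
    W.Point → Wκ.Point
  | .zero => 0
  | .some x y _ =>
    open Classical in
    if hx : x ∈ A ∧ Wκ.Nonsingular (rd A φ x) (rd A φ y) then Point.some _ _ hx.2 else 0

section basic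

omit [DecidableEq K] [DecidableEq κ] in
@[simp] lemma inE0_zero : InE0 A φ Wκ (0 : W.Point) := trivial

omit [DecidableEq K] [DecidableEq κ] in
lemma inE0_some_iff {x y : K} (h : W.Nonsingular x y) :
    InE0 A φ Wκ (Point.some x y h) ↔ (x ∈ A → Wκ.Nonsingular (rd A φ x) (rd A φ y)) := Iff.rfl

omit [DecidableEq K] [DecidableEq κ] in
@[simp] lemma red0_zero : red0 A φ Wκ (0 : W.Point) = 0 := rfl

omit [DecidableEq K] [DecidableEq κ] in
lemma red0_some_of_mem {x y : K} (h : W.Nonsingular x y) (hx : x ∈ A)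
    (hns : Wκ.Nonsingular (rd A φ x) (rd A φ y)) :
    red0 A φ Wκ (Point.some x y h) = Point.some (rd A φ x) (rd A φ y) hns := by
  simp only [red0, hx, hns, and_self, dite_true]

omit [DecidableEq K] [DecidableEq κ] in
lemma red0_some_of_not_mem {x y : K} (h : W.Nonsingular x y) (hx : x ∉ A) :
    red0 A φ Wκ (Point.some x y h) = 0 := by
  simp only [red0, hx, false_and, dite_false]

omit [DecidableEq K] [DecidableEq κ] in
lemma inE0_of_inKer {P : W.Point} (hP : InKer W A.valuation P) : InE0 A φ Wκ P := by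
  rcases P with _ | ⟨x, y, hxy⟩
  · trivial
  · intro hx
    exact absurd hx (not_mem_iff_one_lt.mpr hP)

omit [DecidableEq K] [DecidableEq κ] in
lemma red0_of_inKer {P : W.Point} (hP : InKer W A.valuation P) : red0 A φ Wκ P = 0 := by
  rcases P with _ | ⟨x, y, hxy⟩
  · rfl
  · exact red0_some_of_not_mem hxy (not_mem_iff_one_lt.mpr hP)

omit [DecidableEq K] [DecidableEq κ] in
/-- On `E⁰`, the kernel of reduction is `E₁`. -/
theorem red0_eq_zero_iff {P : W.Point} (hP : InE0 A φ Wκ P) :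
    red0 A φ Wκ P = 0 ↔ InKer W A.valuation P := by
  refine ⟨fun h0 => ?_, red0_of_inKer⟩
  rcases P with _ | ⟨x, y, hxy⟩
  · trivial
  · by_contra hk
    have hx : x ∈ A := by
      by_contra hx
      exact hk (not_mem_iff_one_lt.mp hx)
    rw [red0_some_of_mem hxy hx (hP hx)] at h0
    exact Point.some_ne_zero _ h0

end basic

section neg

variable (h : IsRedOf A φ W Wκ)
include h

omit [DecidableEq κ] in
theorem inE0_neg {P : W.Point} (hP : InE0 A φ Wκ P) : InE0 A φ Wκ (-P) := by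
  rcases P with _ | ⟨x, y, hxy⟩
  · trivial
  · rw [Point.neg_some]
    intro hx
    have hy := y_mem_of_x_mem h hxy.1 hx
    rw [rd_negY h hx hy]
    exact (Affine.nonsingular_neg ..).mpr (hP hx)

theorem red0_neg {P : W.Point} (hP : InE0 A φ Wκ P) :
    red0 A φ Wκ (-P) = -red0 A φ Wκ P := by
  rcases P with _ | ⟨x, y, hxy⟩
  · rfl
  · have hneg := inE0_neg h hP
    rw [Point.neg_some] at hneg ⊢
    by_cases hx : x ∈ A
    · rw [red0_some_of_mem _ hx (hneg hx), red0_some_of_mem hxy hx (hP hx), Point.neg_some]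
      have hy := y_mem_of_x_mem h hxy.1 hx
      congr 1
      exact rd_negY h hx hy
    · rw [red0_some_of_not_mem _ hx, red0_some_of_not_mem hxy hx, neg_zero]

end neg

section add

variable (h : IsRedOf A φ W Wκ) (hφ : KerMax A φ)
include h hφ

/-- Closure and additivity for two integral points with nonsingular reduction. -/
theorem add_of_mem {x₁ y₁ x₂ y₂ : K} (h₁ : W.Nonsingular x₁ y₁) (h₂ : W.Nonsingular x₂ y₂)
    (hx₁ : x₁ ∈ A) (hx₂ : x₂ ∈ A)
    (hn₁ : Wκ.Nonsingular (rd A φ x₁) (rd A φ y₁))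
    (hn₂ : Wκ.Nonsingular (rd A φ x₂) (rd A φ y₂)) :
    InE0 A φ Wκ (Point.some x₁ y₁ h₁ + Point.some x₂ y₂ h₂) ∧
      red0 A φ Wκ (Point.some x₁ y₁ h₁ + Point.some x₂ y₂ h₂) =
        Point.some _ _ hn₁ + Point.some _ _ hn₂ := by
  have hy₁ : y₁ ∈ A := y_mem_of_x_mem h h₁.1 hx₁
  have hy₂ : y₂ ∈ A := y_mem_of_x_mem h h₂.1 hx₂
  by_cases hb : rd A φ x₁ = rd A φ x₂ ∧ rd A φ y₁ = Wκ.negY (rd A φ x₂) (rd A φ y₂)
  · -- the reductions are opposite: the sum lies in `E₁`
    have hker : InKer W A.valuation (Point.some x₁ y₁ h₁ + Point.some x₂ y₂ h₂) := by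
      have h₂' : W.Nonsingular x₂ (W.negY x₂ y₂) := (Affine.nonsingular_neg ..).mpr h₂
      have hn₂' : W.negY x₂ y₂ ∈ A := negY_mem h hx₂ hy₂
      have hx : A.valuation (x₁ - x₂) < 1 := (rd_eq_iff hφ hx₁ hx₂).mp hb.1
      have hy : A.valuation (y₁ - W.negY x₂ y₂) < 1 := by
        rw [← rd_eq_iff hφ hy₁ hn₂', rd_negY h hx₂ hy₂]; exact hb.2
      have hns : A.valuation (W.a₁ * y₁ - (3 * x₁ ^ 2 + 2 * W.a₂ * x₁ + W.a₄)) = 1 ∨
          A.valuation (2 * y₁ + W.a₁ * x₁ + W.a₃) = 1 := by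
        have hN := hn₁
        rw [Affine.nonsingular_iff] at hN
        rcases hN.2 with hN | hN
        · left
          obtain ⟨hgA, hgrd⟩ := rd_slopeNum h hx₁ hy₁
          have e : W.a₁ * y₁ - (3 * x₁ ^ 2 + 2 * W.a₂ * x₁ + W.a₄) =
              -(3 * x₁ ^ 2 + 2 * W.a₂ * x₁ + W.a₄ - W.a₁ * y₁) := by ring
          have hm : W.a₁ * y₁ - (3 * x₁ ^ 2 + 2 * W.a₂ * x₁ + W.a₄) ∈ A := by
            rw [e]; exact A.neg_mem _ hgA
          refine (rd_ne_zero_iff hφ hm).mp ?_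
          rw [e, rd_neg hgA, hgrd]
          intro h0
          apply hN
          linear_combination h0
        · right
          have e : 2 * y₁ + W.a₁ * x₁ + W.a₃ = y₁ - W.negY x₁ y₁ := by
            simp only [Affine.negY]; ring
          have hm : 2 * y₁ + W.a₁ * x₁ + W.a₃ ∈ A := by
            rw [e]; exact A.sub_mem hy₁ (negY_mem h hx₁ hy₁)
          refine (rd_ne_zero_iff hφ hm).mp ?_
          rw [e, rd_sub hy₁ (negY_mem h hx₁ hy₁), rd_negY h hx₁ hy₁]
          intro h0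
          apply hN
          simp only [Affine.negY] at h0
          linear_combination h0
      have key := inKer_sub_of_same_reduction h.integralCoeffs h₁ h₂' (val_le_of_mem hx₁)
        (val_le_of_mem hy₁) (val_le_of_mem hx₂) (val_le_of_mem hn₂') hx hy hns
      have e : Point.some x₁ y₁ h₁ - Point.some x₂ (W.negY x₂ y₂) h₂' =
          Point.some x₁ y₁ h₁ + Point.some x₂ y₂ h₂ := by
        rw [sub_eq_add_neg, Point.neg_some]
        congr 2
        exact Affine.negY_negY ..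
      rwa [e] at key
    refine ⟨inE0_of_inKer hker, ?_⟩
    rw [red0_of_inKer hker, Point.add_of_Y_eq hb.1 hb.2]
  · -- generic case: the slope reduces
    have hK : ¬(x₁ = x₂ ∧ y₁ = W.negY x₂ y₂) := by
      rintro ⟨rfl, rfl⟩
      exact hb ⟨rfl, rd_negY h hx₂ hy₂⟩
    obtain ⟨hℓA, hℓrd⟩ := slope_mem_and_rd h hφ hx₁ hx₂ h₁.1 h₂.1 hb
    have hX : W.addX x₁ x₂ (W.slope x₁ x₂ y₁ y₂) ∈ A := addX_mem h hx₁ hx₂ hℓA
    have eX : rd A φ (W.addX x₁ x₂ (W.slope x₁ x₂ y₁ y₂)) =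
        Wκ.addX (rd A φ x₁) (rd A φ x₂) (Wκ.slope (rd A φ x₁) (rd A φ x₂) (rd A φ y₁) (rd A φ y₂)) := by
      rw [rd_addX h hx₁ hx₂ hℓA, hℓrd]
    have eY : rd A φ (W.addY x₁ x₂ y₁ (W.slope x₁ x₂ y₁ y₂)) =
        Wκ.addY (rd A φ x₁) (rd A φ x₂) (rd A φ y₁)
          (Wκ.slope (rd A φ x₁) (rd A φ x₂) (rd A φ y₁) (rd A φ y₂)) := by
      rw [rd_addY h hx₁ hx₂ hy₁ hℓA, hℓrd]
    have hns : Wκ.Nonsingular (rd A φ (W.addX x₁ x₂ (W.slope x₁ x₂ y₁ y₂)))
        (rd A φ (W.addY x₁ x₂ y₁ (W.slope x₁ x₂ y₁ y₂))) := by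
      rw [eX, eY]
      exact Affine.nonsingular_add hn₁ hn₂ hb
    rw [Point.add_some hK, Point.add_some hb]
    refine ⟨fun _ => hns, ?_⟩
    rw [red0_some_of_mem _ hX hns]
    congr 1

/-- Closure and additivity when the first point lies in `E₁` and the second is integral with
nonsingular reduction. -/
theorem add_of_inKer_of_mem {P : W.Point} (hP : InKer W A.valuation P) {x₂ y₂ : K}
    (h₂ : W.Nonsingular x₂ y₂) (hx₂ : x₂ ∈ A)
    (hn₂ : Wκ.Nonsingular (rd A φ x₂) (rd A φ y₂)) :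
    InE0 A φ Wκ (P + Point.some x₂ y₂ h₂) ∧
      red0 A φ Wκ (P + Point.some x₂ y₂ h₂) = Point.some _ _ hn₂ := by
  have hy₂ : y₂ ∈ A := y_mem_of_x_mem h h₂.1 hx₂
  have hQ : ¬ InKer W A.valuation (Point.some x₂ y₂ h₂) := fun hk =>
    absurd hx₂ (not_mem_iff_one_lt.mpr hk)
  -- `R = P + Q` is not in `E₁`
  have hR : ¬ InKer W A.valuation (P + Point.some x₂ y₂ h₂) := by
    intro hk
    apply hQ
    have := inKer_sub h.integralCoeffs hk hP
    rwa [add_sub_cancel_left] at this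
  rcases hPQ : P + Point.some x₂ y₂ h₂ with _ | ⟨x₃, y₃, h₃⟩
  · rw [hPQ] at hR; exact absurd trivial hR
  · rw [hPQ] at hR
    have hx₃ : x₃ ∈ A := by
      by_contra hx; exact hR (not_mem_iff_one_lt.mp hx)
    have hy₃ : y₃ ∈ A := y_mem_of_x_mem h h₃.1 hx₃
    have h₂' : W.Nonsingular x₂ (W.negY x₂ y₂) := (Affine.nonsingular_neg ..).mpr h₂
    have e : Point.some x₃ y₃ h₃ + Point.some x₂ (W.negY x₂ y₂) h₂' = P := by
      rw [← hPQ, ← Point.neg_some h₂, add_neg_cancel_right]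
    -- the reductions of `R` and `Q` agree
    have hsame : rd A φ x₃ = rd A φ x₂ ∧ rd A φ y₃ = rd A φ y₂ := by
      by_contra hne
      have hne' : ¬(rd A φ x₃ = rd A φ x₂ ∧
          rd A φ y₃ = Wκ.negY (rd A φ x₂) (rd A φ (W.negY x₂ y₂))) := by
        rw [rd_negY h hx₂ hy₂, Affine.negY_negY]
        exact hne
      have hK : ¬(x₃ = x₂ ∧ y₃ = W.negY x₂ (W.negY x₂ y₂)) := by
        rintro ⟨rfl, hy⟩
        rw [Affine.negY_negY] at hy
        exact hne ⟨rfl, by rw [hy]⟩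
      obtain ⟨hℓA, -⟩ := slope_mem_and_rd h hφ hx₃ hx₂ h₃.1 h₂'.1 hne'
      have hX := addX_mem h hx₃ hx₂ hℓA
      rw [Point.add_some hK] at e
      rw [← e] at hP
      exact absurd hX (not_mem_iff_one_lt.mpr hP)
    have hn₃ : Wκ.Nonsingular (rd A φ x₃) (rd A φ y₃) := by
      rw [hsame.1, hsame.2]; exact hn₂
    refine ⟨fun _ => hn₃, ?_⟩
    rw [red0_some_of_mem h₃ hx₃ hn₃]
    congr 1
    · exact hsame.1
    · exact hsame.2

/-- **`E⁰` is closed under addition and reduction is additive on `E⁰`.** -/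
theorem inE0_add_and_red0_add {P Q : W.Point} (hP : InE0 A φ Wκ P) (hQ : InE0 A φ Wκ Q) :
    InE0 A φ Wκ (P + Q) ∧ red0 A φ Wκ (P + Q) = red0 A φ Wκ P + red0 A φ Wκ Q := by
  rcases P with _ | ⟨x₁, y₁, h₁⟩
  · have e : (Point.zero : W.Point) + Q = Q := zero_add Q
    rw [e]
    exact ⟨hQ, (zero_add _).symm⟩
  rcases Q with _ | ⟨x₂, y₂, h₂⟩
  · have e : Point.some x₁ y₁ h₁ + (Point.zero : W.Point) = Point.some x₁ y₁ h₁ := add_zero _
    rw [e]
    exact ⟨hP, (add_zero _).symm⟩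
  by_cases hx₁ : x₁ ∈ A
  · by_cases hx₂ : x₂ ∈ A
    · have := add_of_mem h hφ h₁ h₂ hx₁ hx₂ (hP hx₁) (hQ hx₂)
      rw [red0_some_of_mem h₁ hx₁ (hP hx₁), red0_some_of_mem h₂ hx₂ (hQ hx₂)]
      exact this
    · have hk : InKer W A.valuation (Point.some x₂ y₂ h₂) := not_mem_iff_one_lt.mp hx₂
      have := add_of_inKer_of_mem h hφ hk h₁ hx₁ (hP hx₁)
      rw [add_comm, red0_of_inKer hk, add_zero, red0_some_of_mem h₁ hx₁ (hP hx₁)]
      exact this
  · have hk₁ : InKer W A.valuation (Point.some x₁ y₁ h₁) := not_mem_iff_one_lt.mp hx₁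
    by_cases hx₂ : x₂ ∈ A
    · have := add_of_inKer_of_mem h hφ hk₁ h₂ hx₂ (hQ hx₂)
      rw [red0_of_inKer hk₁, zero_add, red0_some_of_mem h₂ hx₂ (hQ hx₂)]
      exact this
    · have hk₂ : InKer W A.valuation (Point.some x₂ y₂ h₂) := not_mem_iff_one_lt.mp hx₂
      have hk := inKer_add h.integralCoeffs hk₁ hk₂
      exact ⟨inE0_of_inKer hk, by rw [red0_of_inKer hk, red0_of_inKer hk₁, red0_of_inKer hk₂,
        add_zero]⟩

theorem inE0_add {P Q : W.Point} (hP : InE0 A φ Wκ P) (hQ : InE0 A φ Wκ Q) :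
    InE0 A φ Wκ (P + Q) := (inE0_add_and_red0_add h hφ hP hQ).1

theorem red0_add {P Q : W.Point} (hP : InE0 A φ Wκ P) (hQ : InE0 A φ Wκ Q) :
    red0 A φ Wκ (P + Q) = red0 A φ Wκ P + red0 A φ Wκ Q := (inE0_add_and_red0_add h hφ hP hQ).2

theorem inE0_nsmul_and_red0_nsmul {P : W.Point} (hP : InE0 A φ Wκ P) (n : ℕ) :
    InE0 A φ Wκ (n • P) ∧ red0 A φ Wκ (n • P) = n • red0 A φ Wκ P := by
  induction n with
  | zero => exact ⟨by rw [zero_smul]; exact inE0_zero, by rw [zero_smul, zero_smul]; rfl⟩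
  | succ n ih =>
    rw [succ_nsmul, succ_nsmul]
    exact ⟨inE0_add h hφ ih.1 hP, by rw [red0_add h hφ ih.1 hP, ih.2]⟩

theorem inE0_nsmul {P : W.Point} (hP : InE0 A φ Wκ P) (n : ℕ) : InE0 A φ Wκ (n • P) :=
  (inE0_nsmul_and_red0_nsmul h hφ hP n).1

theorem red0_nsmul {P : W.Point} (hP : InE0 A φ Wκ P) (n : ℕ) :
    red0 A φ Wκ (n • P) = n • red0 A φ Wκ P := (inE0_nsmul_and_red0_nsmul h hφ hP n).2

/-- **Reduction preserves prime order on `E⁰`** (for primes that are units of `A`). -/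
theorem addOrderOf_red0 {p : ℕ} (hp : p.Prime) (hv : A.valuation (p : K) = 1) {Q : W.Point}
    (hQ : InE0 A φ Wκ Q) (hord : addOrderOf Q = p) : addOrderOf (red0 A φ Wκ Q) = p := by
  have hpQ : p • Q = 0 := by rw [← hord]; exact addOrderOf_nsmul_eq_zero Q
  have hQ0 : Q ≠ 0 := by
    intro h0
    rw [h0, addOrderOf_zero] at hord
    exact hp.one_lt.ne hord
  have h1 : p • red0 A φ Wκ Q = 0 := by
    rw [← red0_nsmul h hφ hQ, hpQ]; rfl
  have h2 : red0 A φ Wκ Q ≠ 0 := by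
    intro h0
    have hk := (red0_eq_zero_iff hQ).mp h0
    exact hQ0 (Fermat.Agent.S05.C1b.eq_zero_of_inKer_of_nsmul_eq_zero h.integralCoeffs p hv Q
      hk hpQ)
  have hdvd := addOrderOf_dvd_of_nsmul_eq_zero h1
  rcases (Nat.dvd_prime hp).mp hdvd with h3 | h3
  · exact absurd (AddMonoid.addOrderOf_eq_one_iff.mp h3) h2
  · exact h3

end add

end Fermat.Agent.S15.H242
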