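import Fermat.Agent.S15.H242.NodalSing

/-!
# S15, piece P-LOC (helper242), part 2: counting the nonsingular points of a nodal cubic

Let `W` be a Weierstrass cubic over a finite field `k` with `Δ = 0` and `c₄ ≠ 0` (a nodal cubic).
Then the group `W.Point` of nonsingular points has `#k - 1` or `#k + 1` elements.

Proof: the lines through the singular point `(x₀, y₀)` parametrise the nonsingular affine points:
`t ↦ (x₀ + g t, y₀ + t * g t)` with `g t = t² + a₁ t - (3 x₀ + a₂)`, for the slopes `t` with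
`g t ≠ 0`; and `g` has `0` or `2` roots in `k` since its discriminant `b₂ + 12 x₀` is nonzero
(its square is `c₄`).
-/

set_option autoImplicit false

namespace Fermat.Agent.S15.H242

open WeierstrassCurve WeierstrassCurve.Affine

variable {k : Type*} [Field k] (W : Affine k)

/-- The quadratic whose roots are the slopes of the tangent lines at the singular point
with `x`-coordinate `x₀`. -/
def nodeQuad (x₀ t : k) : k := t ^ 2 + W.a₁ * t - (3 * x₀ + W.a₂)

variable {W}
variable {x₀ y₀ : k}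

/-- The Weierstrass equation in coordinates centred at a singular point. -/
theorem equation_translate (hF : W.Equation x₀ y₀)
    (hFx : W.a₁ * y₀ - (3 * x₀ ^ 2 + 2 * W.a₂ * x₀ + W.a₄) = 0)
    (hFy : 2 * y₀ + W.a₁ * x₀ + W.a₃ = 0) (X Y : k) :
    W.Equation (x₀ + X) (y₀ + Y) ↔ Y ^ 2 + W.a₁ * X * Y - (3 * x₀ + W.a₂) * X ^ 2 = X ^ 3 := by
  rw [Affine.equation_iff] at hF ⊢
  constructor
  · intro h
    linear_combination h - hF - X * hFx - Y * hFy
  · intro h
    linear_combination h + hF + X * hFx + Y * hFy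

/-- The point with slope parameter `t` is a nonsingular point of `W` as soon as `g t ≠ 0`. -/
theorem nonsingular_param (hF : W.Equation x₀ y₀)
    (hFx : W.a₁ * y₀ - (3 * x₀ ^ 2 + 2 * W.a₂ * x₀ + W.a₄) = 0)
    (hFy : 2 * y₀ + W.a₁ * x₀ + W.a₃ = 0) {t : k} (ht : nodeQuad W x₀ t ≠ 0) :
    W.Nonsingular (x₀ + nodeQuad W x₀ t) (y₀ + t * nodeQuad W x₀ t) := by
  have hE : W.Equation (x₀ + nodeQuad W x₀ t) (y₀ + t * nodeQuad W x₀ t) := by
    rw [equation_translate hF hFx hFy]
    have hg : nodeQuad W x₀ t = t ^ 2 + W.a₁ * t - (3 * x₀ + W.a₂) := rfl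
    linear_combination (-(nodeQuad W x₀ t) ^ 2) * hg
  rw [Affine.nonsingular_iff]
  refine ⟨hE, ?_⟩
  by_contra hcon
  push Not at hcon
  obtain ⟨h1, h2⟩ := hcon
  have hE' := (equation_translate hF hFx hFy _ _).mp hE
  have h3 : (nodeQuad W x₀ t) ^ 3 = 0 := by
    linear_combination (-(nodeQuad W x₀ t)) * h1 + (nodeQuad W x₀ t) * hFx
      - (t * nodeQuad W x₀ t) * h2 + (t * nodeQuad W x₀ t) * hFy + 2 * hE'
  exact ht (pow_eq_zero_iff (by norm_num) |>.mp h3)

/-- Every nonsingular point of `W` is of the form `(x₀ + g t, y₀ + t * g t)` with `g t ≠ 0`. -/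
theorem exists_param (hF : W.Equation x₀ y₀)
    (hFx : W.a₁ * y₀ - (3 * x₀ ^ 2 + 2 * W.a₂ * x₀ + W.a₄) = 0)
    (hFy : 2 * y₀ + W.a₁ * x₀ + W.a₃ = 0) {x y : k} (h : W.Nonsingular x y) :
    ∃ t : k, nodeQuad W x₀ t ≠ 0 ∧ x = x₀ + nodeQuad W x₀ t ∧ y = y₀ + t * nodeQuad W x₀ t := by
  have hE : W.Equation (x₀ + (x - x₀)) (y₀ + (y - y₀)) := by
    have := h.1
    rwa [add_sub_cancel, add_sub_cancel]
  have hE' := (equation_translate hF hFx hFy _ _).mp hE
  have hX : x - x₀ ≠ 0 := by
    intro hX0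
    rw [hX0] at hE'
    have hY : y - y₀ = 0 := by
      have : (y - y₀) ^ 2 = 0 := by linear_combination hE'
      exact pow_eq_zero_iff (by norm_num) |>.mp this
    have hx : x = x₀ := sub_eq_zero.mp hX0
    have hy : y = y₀ := sub_eq_zero.mp hY
    subst hx hy
    rw [Affine.nonsingular_iff] at h
    rcases h.2 with h' | h'
    · exact h' (by linear_combination hFx)
    · exact h' (by linear_combination hFy)
  refine ⟨(y - y₀) / (x - x₀), ?_, ?_, ?_⟩
  all_goals
    have hg : nodeQuad W x₀ ((y - y₀) / (x - x₀)) = x - x₀ := by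
      unfold nodeQuad
      field_simp
      linear_combination hE'
  · rw [hg]; exact hX
  · rw [hg]; ring
  · rw [hg]; field_simp; ring

/-- The tangent quadratic has no root or exactly two roots. -/
theorem ncard_roots_nodeQuad (hd : W.b₂ + 12 * x₀ ≠ 0) :
    {t : k | nodeQuad W x₀ t = 0}.ncard = 0 ∨ {t : k | nodeQuad W x₀ t = 0}.ncard = 2 := by
  by_cases hex : ∃ r, nodeQuad W x₀ r = 0
  · right
    obtain ⟨r, hr⟩ := hex
    have hne : r ≠ -W.a₁ - r := by
      intro h
      apply hd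
      have h' : 2 * r + W.a₁ = 0 := by linear_combination h
      simp only [WeierstrassCurve.b₂]
      unfold nodeQuad at hr
      linear_combination (2 * r + W.a₁) * h' - 4 * hr
    have hset : {t : k | nodeQuad W x₀ t = 0} = {r, -W.a₁ - r} := by
      ext t
      simp only [Set.mem_ofPred_eq, Set.mem_insert_iff, Set.mem_singleton_iff]
      have hfac : nodeQuad W x₀ t = (t - r) * (t - (-W.a₁ - r)) := by
        unfold nodeQuad at hr ⊢
        linear_combination hr
      rw [hfac, mul_eq_zero, sub_eq_zero, sub_eq_zero]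
    rw [hset]
    exact Set.ncard_pair hne
  · left
    have : {t : k | nodeQuad W x₀ t = 0} = ∅ := by
      ext t
      simp only [Set.mem_ofPred_eq, Set.mem_empty_iff_false, iff_false]
      exact fun h => hex ⟨t, h⟩
    rw [this, Set.ncard_empty]

/-- The parametrisation of `W.Point` by `Option {t // g t ≠ 0}`. -/
noncomputable def nodeParam (hF : W.Equation x₀ y₀)
    (hFx : W.a₁ * y₀ - (3 * x₀ ^ 2 + 2 * W.a₂ * x₀ + W.a₄) = 0)
    (hFy : 2 * y₀ + W.a₁ * x₀ + W.a₃ = 0) : Option {t : k // nodeQuad W x₀ t ≠ 0} → W.Point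
  | none => 0
  | some t => Point.some _ _ (nonsingular_param hF hFx hFy t.2)

theorem nodeParam_bijective (hF : W.Equation x₀ y₀)
    (hFx : W.a₁ * y₀ - (3 * x₀ ^ 2 + 2 * W.a₂ * x₀ + W.a₄) = 0)
    (hFy : 2 * y₀ + W.a₁ * x₀ + W.a₃ = 0) : Function.Bijective (nodeParam hF hFx hFy) := by
  constructor
  · rintro (_ | ⟨t, ht⟩) (_ | ⟨t', ht'⟩) h
    · rfl
    · exact absurd h.symm (Point.some_ne_zero _)
    · exact absurd h (Point.some_ne_zero _)
    · simp only [nodeParam, Point.some.injEq] at h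
      obtain ⟨h1, h2⟩ := h
      have hg : nodeQuad W x₀ t = nodeQuad W x₀ t' := add_left_cancel h1
      have h3 : t * nodeQuad W x₀ t = t' * nodeQuad W x₀ t := by
        have := add_left_cancel h2
        rwa [← hg] at this
      have : t = t' := mul_right_cancel₀ ht h3
      subst this
      rfl
  · rintro (_ | ⟨x, y, h⟩)
    · exact ⟨none, rfl⟩
    · obtain ⟨t, ht, hx, hy⟩ := exists_param hF hFx hFy h
      refine ⟨some ⟨t, ht⟩, ?_⟩
      simp only [nodeParam, Point.some.injEq]
      exact ⟨hx.symm, hy.symm⟩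

/-- **Point count of a nodal cubic**, given the singular point. -/
theorem natCard_point_of_singular [Finite k] (hF : W.Equation x₀ y₀)
    (hFx : W.a₁ * y₀ - (3 * x₀ ^ 2 + 2 * W.a₂ * x₀ + W.a₄) = 0)
    (hFy : 2 * y₀ + W.a₁ * x₀ + W.a₃ = 0) (hc : W.c₄ ≠ 0) :
    Nat.card W.Point + 1 = Nat.card k ∨ Nat.card W.Point = Nat.card k + 1 := by
  have hd : W.b₂ + 12 * x₀ ≠ 0 := by
    intro h
    apply hc
    rw [c₄_eq_of_singular W hFx hFy, h]
    ring
  have hcard : Nat.card W.Point = Nat.card {t : k // nodeQuad W x₀ t ≠ 0} + 1 := by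
    rw [← Nat.card_eq_of_bijective _ (nodeParam_bijective hF hFx hFy), Finite.card_option]
  have hcompl : {t : k | nodeQuad W x₀ t = 0}.ncard + {t : k | nodeQuad W x₀ t ≠ 0}.ncard
      = Nat.card k := by
    have := Set.ncard_add_ncard_compl {t : k | nodeQuad W x₀ t = 0}
    rwa [show {t : k | nodeQuad W x₀ t = 0}ᶜ = {t : k | nodeQuad W x₀ t ≠ 0} from rfl] at this
  have hsub : Nat.card {t : k // nodeQuad W x₀ t ≠ 0} = {t : k | nodeQuad W x₀ t ≠ 0}.ncard :=
    Nat.card_coe_set_eq _
  rcases ncard_roots_nodeQuad (W := W) hd with h0 | h2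
  · right
    rw [hcard, hsub]
    omega
  · left
    rw [hcard, hsub]
    omega

/-- **Point count of a nodal cubic** over a finite field: `#W.Point = #k - 1` or `#k + 1`. -/
theorem natCard_point_nodal [Finite k] (hc : W.c₄ ≠ 0) (hΔ : W.Δ = 0) :
    Nat.card W.Point + 1 = Nat.card k ∨ Nat.card W.Point = Nat.card k + 1 :=
  natCard_point_of_singular (sing_F W hc hΔ) (sing_Fx W hc hΔ) (sing_Fy W hc) hc

/-- The order of a point on a nodal cubic over a finite field with `q` elements divides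
`q - 1` or `q + 1`. -/
theorem addOrderOf_dvd_of_nodal [DecidableEq k] [Finite k] (hc : W.c₄ ≠ 0) (hΔ : W.Δ = 0) (P : W.Point) :
    addOrderOf P ∣ Nat.card k - 1 ∨ addOrderOf P ∣ Nat.card k + 1 := by
  have h := addOrderOf_dvd_natCard P
  rcases natCard_point_nodal hc hΔ with h1 | h1
  · left
    have : Nat.card W.Point = Nat.card k - 1 := by omega
    rwa [this] at h
  · right
    rwa [h1] at h

end Fermat.Agent.S15.H242
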