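import Mathlib
import Fermat.Prelude.Def_EllipticCurve_ZeroComponentAt
import Fermat.Prelude.Def_FLTPrelim_Ramification
import Fermat.Agent.S15.H242.NodalCount
import Fermat.Agent.S15.H242.E0Red

/-!
# S15, piece P-LOC (helper242): the local case of Mazur's Step 3

`loc_not_inZeroComponentAt`: in the situation of S15 (a Galois-fixed point `Q` of prime order `p`
on `W / ℚ`, a prime `ℓ ≠ p` of multiplicative reduction, a place `A` over `ℓ`), if
`p ∤ ℓ - 1` and `p ∤ ℓ + 1` then `Q` is NOT in the zero component at `A`.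

Equivalently (`loc_dvd_of_inZeroComponentAt`): if `Q` is in the zero component at `A`, then
`p ∣ ℓ - 1 ∨ p ∣ ℓ + 1`.

Consequently the global (Eisenstein-quotient) argument for S15 is only needed for the primes
`ℓ ≡ ±1 (mod p)`; in particular never for a prime `ℓ` dividing `n = num((p-1)/12)` (such an `ℓ`
satisfies `ℓ ≤ (p-1)/2`).

Proof: `E⁰(ℚ̄) → Ẽ_ns(κ_A)` is a homomorphism (`E0Red`), injective on `p`-torsion (`S05.C1b`),
the image of a rational point has coordinates in the prime field `𝔽_ℓ`, and the nodal cubic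
`Ẽ_ns(𝔽_ℓ)` has `ℓ - 1` or `ℓ + 1` points (`NodalCount`).
-/

set_option autoImplicit false
open WeierstrassCurve WeierstrassCurve.Affine

namespace Fermat.Agent.S15.H242

open Fermat.Agent.Lib.Red.H290
open Fermat.Agent.S05.SameRed (IntegralCoeffs InKer)

section val

variable {K : Type*} [Field K] (A : ValuationSubring K)

lemma val_intCast_le_one (n : ℤ) : A.valuation (n : K) ≤ 1 :=
  (A.valuation_le_one_iff _).mpr (intCast_mem A n)

/-- An integer prime to the residue characteristic is a unit of `A`. -/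
lemma val_intCast_eq_one {ℓ : ℕ} (hA : A.LiesOverPrime ℓ) (hℓ : ℓ.Prime) {b : ℤ}
    (hb : ¬ (ℓ : ℤ) ∣ b) : A.valuation (b : K) = 1 := by
  have hcop : IsCoprime (ℓ : ℤ) b :=
    (Nat.prime_iff_prime_int.mp hℓ).coprime_iff_not_dvd.mpr hb
  obtain ⟨u, v, huv⟩ := hcop
  have hℓv : A.valuation (ℓ : K) < 1 := (A.mem_nonunits_iff).mp hA
  have h1 : (v : K) * (b : K) = 1 - (u : K) * (ℓ : K) := by
    have := congrArg (Int.cast : ℤ → K) huv
    push_cast at this
    linear_combination this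
  have h2 : A.valuation ((u : K) * (ℓ : K)) < 1 := by
    rw [map_mul]
    calc A.valuation (u : K) * A.valuation (ℓ : K) ≤ 1 * A.valuation (ℓ : K) :=
          mul_le_mul_left (val_intCast_le_one A u) _
      _ < 1 := by rwa [one_mul]
  have h3 : A.valuation (1 - (u : K) * ℓ) = 1 := Valuation.map_one_sub_of_lt _ h2
  have h4 : A.valuation (v : K) * A.valuation (b : K) = 1 := by rw [← map_mul, h1, h3]
  refine le_antisymm (val_intCast_le_one A b) ?_
  calc (1 : _) = A.valuation (v : K) * A.valuation (b : K) := h4.symm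
    _ ≤ 1 * A.valuation (b : K) := mul_le_mul_left (val_intCast_le_one A v) _
    _ = A.valuation (b : K) := one_mul _

lemma val_natCast_eq_one {ℓ : ℕ} (hA : A.LiesOverPrime ℓ) (hℓ : ℓ.Prime) {p : ℕ} (hp : p.Prime)
    (hne : ℓ ≠ p) : A.valuation (p : K) = 1 := by
  have := val_intCast_eq_one A hA hℓ (b := (p : ℤ)) (by
    intro h
    have h' : ℓ ∣ p := by exact_mod_cast h
    exact hne ((Nat.prime_dvd_prime_iff_eq hℓ hp).mp h'))
  simpa using this

lemma rd_intCast {κ : Type*} [Field κ] (φ : A →+* κ) (n : ℤ) : rd A φ (n : K) = (n : κ) := by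
  rw [rd_of_mem (intCast_mem A n)]
  have : (⟨(n : K), intCast_mem A n⟩ : A) = (n : A) := rfl
  rw [this, map_intCast]

end val


section setup

variable {K : Type*} [Field K] [Algebra ℚ K] (A : ValuationSubring K) (W : WeierstrassCurve ℤ)

lemma isRedOf_int {κ : Type*} [Field κ] (φ : A →+* κ) :
    IsRedOf A φ ((W.map (Int.castRingHom ℚ))⁄K) (W⁄κ) where
  m₁ := by
    show algebraMap ℚ K ((Int.castRingHom ℚ) W.a₁) ∈ A
    simp only [eq_intCast, map_intCast]; exact intCast_mem A _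
  m₂ := by
    show algebraMap ℚ K ((Int.castRingHom ℚ) W.a₂) ∈ A
    simp only [eq_intCast, map_intCast]; exact intCast_mem A _
  m₃ := by
    show algebraMap ℚ K ((Int.castRingHom ℚ) W.a₃) ∈ A
    simp only [eq_intCast, map_intCast]; exact intCast_mem A _
  m₄ := by
    show algebraMap ℚ K ((Int.castRingHom ℚ) W.a₄) ∈ A
    simp only [eq_intCast, map_intCast]; exact intCast_mem A _
  m₆ := by
    show algebraMap ℚ K ((Int.castRingHom ℚ) W.a₆) ∈ A
    simp only [eq_intCast, map_intCast]; exact intCast_mem A _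
  a₁ := by
    show rd A φ (algebraMap ℚ K ((Int.castRingHom ℚ) W.a₁)) = (Int.castRingHom κ) W.a₁
    simp only [eq_intCast, map_intCast]; exact rd_intCast A φ _
  a₂ := by
    show rd A φ (algebraMap ℚ K ((Int.castRingHom ℚ) W.a₂)) = (Int.castRingHom κ) W.a₂
    simp only [eq_intCast, map_intCast]; exact rd_intCast A φ _
  a₃ := by
    show rd A φ (algebraMap ℚ K ((Int.castRingHom ℚ) W.a₃)) = (Int.castRingHom κ) W.a₃
    simp only [eq_intCast, map_intCast]; exact rd_intCast A φ _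
  a₄ := by
    show rd A φ (algebraMap ℚ K ((Int.castRingHom ℚ) W.a₄)) = (Int.castRingHom κ) W.a₄
    simp only [eq_intCast, map_intCast]; exact rd_intCast A φ _
  a₆ := by
    show rd A φ (algebraMap ℚ K ((Int.castRingHom ℚ) W.a₆)) = (Int.castRingHom κ) W.a₆
    simp only [eq_intCast, map_intCast]; exact rd_intCast A φ _

end setup

section bridge

variable (W : WeierstrassCurve ℤ) (A : ValuationSubring (AlgebraicClosure ℚ))

/-- The Prelude's `InZeroComponentAt` implies `InE0`. -/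
lemma inE0_of_inZeroComponentAt
    {Q : ((W.map (Int.castRingHom ℚ))⁄(AlgebraicClosure ℚ)).Point}
    (hQ : W.InZeroComponentAt A Q) :
    InE0 A (IsLocalRing.residue A) (W⁄(IsLocalRing.ResidueField A)) Q := by
  rcases hQ with rfl | ⟨x, y, h, rfl, hx | ⟨hx, hy, hns⟩⟩
  · exact inE0_zero
  · intro hx'
    exact absurd hx' hx
  · intro _
    rw [rd_of_mem hx, rd_of_mem hy]
    exact hns

end bridge

section rat

variable {K : Type*} [Field K] [Algebra ℚ K] (A : ValuationSubring K)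

/-- The residue of a rational number that is integral at `A` lies in the prime field. -/
lemma rd_algebraMap_rat_mem_range {ℓ : ℕ} (hA : A.LiesOverPrime ℓ) (hℓ : ℓ.Prime)
    {κ : Type*} [Field κ] (φ : A →+* κ) (ι : ZMod ℓ →+* κ) (r : ℚ)
    (hr : algebraMap ℚ K r ∈ A) :
    rd A φ (algebraMap ℚ K r) ∈ Set.range ι := by
  have hℓv : A.valuation (ℓ : K) < 1 := (A.mem_nonunits_iff).mp hA
  have hrK : algebraMap ℚ K r = (r.num : K) / (r.den : K) := by
    conv_lhs => rw [← Rat.num_div_den r]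
    rw [map_div₀, map_intCast, map_natCast]
  have hden0 : (r.den : K) ≠ 0 := by
    have : (algebraMap ℚ K (r.den : ℚ)) ≠ 0 := by
      rw [Ne, map_eq_zero]
      exact_mod_cast r.den_ne_zero
    simpa using this
  have hb : ¬ (ℓ : ℤ) ∣ (r.den : ℤ) := by
    intro hdvd
    have hnum : ¬ (ℓ : ℤ) ∣ r.num := by
      intro hn
      have h1 : ℓ ∣ r.num.natAbs := Int.natCast_dvd.mp hn
      have h2 : ℓ ∣ r.den := by exact_mod_cast hdvd
      have := Nat.eq_one_of_dvd_coprimes r.reduced h1 h2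
      exact hℓ.one_lt.ne' this
    have hvn : A.valuation (r.num : K) = 1 := val_intCast_eq_one A hA hℓ hnum
    have hvd : A.valuation (r.den : K) < 1 := by
      obtain ⟨c, hc⟩ := hdvd
      have : (r.den : K) = (ℓ : K) * (c : K) := by
        have := congrArg (Int.cast : ℤ → K) hc
        push_cast at this
        exact this
      rw [this, map_mul]
      calc A.valuation (ℓ : K) * A.valuation (c : K) ≤ A.valuation (ℓ : K) * 1 :=
            mul_le_mul_right (val_intCast_le_one A c) _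
        _ < 1 := by rwa [mul_one]
    have hle : A.valuation (algebraMap ℚ K r) ≤ 1 := (A.valuation_le_one_iff _).mpr hr
    rw [hrK, map_div₀, hvn] at hle
    have hd0 : A.valuation (r.den : K) ≠ 0 := by
      rw [Ne, Valuation.zero_iff]; exact hden0
    have : (1 : _) ≤ A.valuation (r.den : K) := by
      have := (div_le_iff₀ (zero_lt_iff.mpr hd0)).mp hle
      rwa [one_mul] at this
    exact absurd hvd (not_lt.mpr this)
  have hvd : A.valuation (r.den : K) = 1 := by
    have := val_intCast_eq_one A hA hℓ hb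
    simpa using this
  haveI : Fact ℓ.Prime := ⟨hℓ⟩
  refine ⟨(r.num : ZMod ℓ) / (r.den : ZMod ℓ), ?_⟩
  rw [hrK, rd_div (intCast_mem A _) hvd, rd_intCast]
  have : rd A φ (r.den : K) = (r.den : κ) := by
    have := rd_intCast A φ (r.den : ℤ)
    simpa using this
  rw [this, map_div₀, map_intCast, map_natCast]

end rat

section galois

theorem isGalois_Qbar_h242 : IsGalois ℚ (AlgebraicClosure ℚ) := by
  have : Algebra.IsAlgebraic ℚ (AlgebraicClosure ℚ) := AlgebraicClosure.isAlgebraic ℚ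
  have : IsAlgClosure ℚ (AlgebraicClosure ℚ) := ⟨inferInstance, inferInstance⟩
  exact IsAlgClosure.isGalois ℚ (AlgebraicClosure ℚ)

variable (W : WeierstrassCurve ℤ)

/-- A Galois-fixed affine point has rational coordinates. -/
lemma coords_rational {x y : AlgebraicClosure ℚ}
    (h : ((W.map (Int.castRingHom ℚ))⁄(AlgebraicClosure ℚ)).Nonsingular x y)
    (hfix : ∀ σ : AlgebraicClosure ℚ ≃ₐ[ℚ] AlgebraicClosure ℚ,
      σ • (Point.some x y h : ((W.map (Int.castRingHom ℚ))⁄(AlgebraicClosure ℚ)).Point)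
        = Point.some x y h) :
    x ∈ Set.range (algebraMap ℚ (AlgebraicClosure ℚ)) ∧
      y ∈ Set.range (algebraMap ℚ (AlgebraicClosure ℚ)) := by
  have := isGalois_Qbar_h242
  have key : ∀ σ : AlgebraicClosure ℚ ≃ₐ[ℚ] AlgebraicClosure ℚ, σ x = x ∧ σ y = y := by
    intro σ
    have := hfix σ
    rw [Point.algEquiv_smul_def, Point.map_some] at this
    simp only [Point.some.injEq] at this
    exact this
  exact ⟨(InfiniteGalois.mem_range_algebraMap_iff_fixed x).mpr fun σ => (key σ).1,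
    (InfiniteGalois.mem_range_algebraMap_iff_fixed y).mpr fun σ => (key σ).2⟩

end galois

section main

/-- **P-LOC.** In the situation of S15, a point in the zero component at a place over a
multiplicative prime `ℓ ≠ p` forces `p ∣ ℓ - 1` or `p ∣ ℓ + 1`. -/
theorem loc_dvd_of_inZeroComponentAt
    {p : ℕ} (hp : p.Prime) (W : WeierstrassCurve ℤ)
    (Q : ((W.map (Int.castRingHom ℚ))⁄(AlgebraicClosure ℚ)).Point)
    (hQfix : ∀ σ : AlgebraicClosure ℚ ≃ₐ[ℚ] AlgebraicClosure ℚ, σ • Q = Q)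
    (hQord : addOrderOf Q = p)
    {ℓ : ℕ} (hℓ : ℓ.Prime) (hℓp : ℓ ≠ p) (hℓΔ : (ℓ : ℤ) ∣ W.Δ) (hℓc₄ : ¬ (ℓ : ℤ) ∣ W.c₄)
    (A : ValuationSubring (AlgebraicClosure ℚ)) (hA : A.LiesOverPrime ℓ)
    (hQ0 : W.InZeroComponentAt A Q) :
    p ∣ ℓ - 1 ∨ p ∣ ℓ + 1 := by
  classical
  have hφ : KerMax A (IsLocalRing.residue A) := kerMax_residue A
  have hred : IsRedOf A (IsLocalRing.residue A)
      ((W.map (Int.castRingHom ℚ))⁄(AlgebraicClosure ℚ)) (W⁄(IsLocalRing.ResidueField A)) :=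
    isRedOf_int A W (IsLocalRing.residue A)
  have hE0 : InE0 A (IsLocalRing.residue A) (W⁄(IsLocalRing.ResidueField A)) Q :=
    inE0_of_inZeroComponentAt W A hQ0
  have hv : A.valuation ((p : ℕ) : AlgebraicClosure ℚ) = 1 := val_natCast_eq_one A hA hℓ hp hℓp
  have hord := addOrderOf_red0 hred hφ hp hv hE0 hQord
  rcases Q with _ | ⟨x, y, h⟩
  · rw [show (Point.zero : ((W.map (Int.castRingHom ℚ))⁄(AlgebraicClosure ℚ)).Point) = 0 from rfl,
      addOrderOf_zero] at hQord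
    exact absurd hQord hp.one_lt.ne
  obtain ⟨⟨rx, hrx⟩, ⟨ry, hry⟩⟩ := coords_rational W h hQfix
  have hx : x ∈ A := by
    by_contra hx
    rw [red0_some_of_not_mem h hx, addOrderOf_zero] at hord
    exact hp.one_lt.ne hord
  have hns : (W⁄(IsLocalRing.ResidueField A)).Nonsingular
      (rd A (IsLocalRing.residue A) x) (rd A (IsLocalRing.residue A) y) := hE0 hx
  have hy : y ∈ A := y_mem_of_x_mem hred h.1 hx
  rw [red0_some_of_mem h hx hns] at hord
  haveI : Fact ℓ.Prime := ⟨hℓ⟩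
  haveI : CharP (IsLocalRing.ResidueField A) ℓ := (CharP.charP_iff_prime_eq_zero hℓ).mpr (by
    have h0 : rd A (IsLocalRing.residue A) ((ℓ : ℤ) : AlgebraicClosure ℚ) = 0 :=
      rd_eq_zero_of_lt hφ (by
        have := (A.mem_nonunits_iff).mp hA
        simpa using this)
    rw [rd_intCast] at h0
    exact_mod_cast h0)
  let f : ZMod ℓ →ₐ[ℤ] IsLocalRing.ResidueField A :=
    (ZMod.castHom dvd_rfl (IsLocalRing.ResidueField A)).toIntAlgHom
  have hf : Function.Injective f := (f : ZMod ℓ →+* IsLocalRing.ResidueField A).injective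
  obtain ⟨u, hu⟩ := rd_algebraMap_rat_mem_range A hA hℓ (IsLocalRing.residue A)
    (f : ZMod ℓ →+* IsLocalRing.ResidueField A) rx (by rw [hrx]; exact hx)
  obtain ⟨w, hw⟩ := rd_algebraMap_rat_mem_range A hA hℓ (IsLocalRing.residue A)
    (f : ZMod ℓ →+* IsLocalRing.ResidueField A) ry (by rw [hry]; exact hy)
  rw [hrx] at hu
  rw [hry] at hw
  generalize rd A (IsLocalRing.residue A) x = X at hns hord hu
  generalize rd A (IsLocalRing.residue A) y = Y at hns hord hw
  subst hu hw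
  have hns0 : (W⁄(ZMod ℓ)).Nonsingular u w :=
    (Affine.baseChange_nonsingular W (f := f) hf u w).mp hns
  have hmap : Point.map (W' := W) f (Point.some u w hns0) = Point.some _ _ hns :=
    Point.map_some f hns0
  have hord0 : addOrderOf (Point.some u w hns0 : (W⁄(ZMod ℓ)).Point) = p := by
    rw [← addOrderOf_injective (Point.map (W' := W) f) (Point.map_injective f), hmap]
    exact hord
  have hΔ0 : (W⁄(ZMod ℓ)).Δ = 0 := by
    show (W.map (algebraMap ℤ (ZMod ℓ))).Δ = 0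
    rw [WeierstrassCurve.map_Δ, algebraMap_int_eq, eq_intCast,
      ZMod.intCast_zmod_eq_zero_iff_dvd]
    exact hℓΔ
  have hc0 : (W⁄(ZMod ℓ)).c₄ ≠ 0 := by
    show (W.map (algebraMap ℤ (ZMod ℓ))).c₄ ≠ 0
    rw [WeierstrassCurve.map_c₄, algebraMap_int_eq, eq_intCast, Ne,
      ZMod.intCast_zmod_eq_zero_iff_dvd]
    exact hℓc₄
  have := addOrderOf_dvd_of_nodal hc0 hΔ0 (Point.some u w hns0)
  rwa [hord0, Nat.card_zmod] at this

/-- **P-LOC**, in the shape of the conclusion of S15. -/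
theorem loc_not_inZeroComponentAt
    {p : ℕ} (hp : p.Prime) (W : WeierstrassCurve ℤ)
    (Q : ((W.map (Int.castRingHom ℚ))⁄(AlgebraicClosure ℚ)).Point)
    (hQfix : ∀ σ : AlgebraicClosure ℚ ≃ₐ[ℚ] AlgebraicClosure ℚ, σ • Q = Q)
    (hQord : addOrderOf Q = p)
    {ℓ : ℕ} (hℓ : ℓ.Prime) (hℓp : ℓ ≠ p) (hℓΔ : (ℓ : ℤ) ∣ W.Δ) (hℓc₄ : ¬ (ℓ : ℤ) ∣ W.c₄)
    (A : ValuationSubring (AlgebraicClosure ℚ)) (hA : A.LiesOverPrime ℓ)
    (hnd : ¬ p ∣ ℓ - 1) (hnd' : ¬ p ∣ ℓ + 1) :
    ¬ W.InZeroComponentAt A Q := fun hQ0 =>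
  (loc_dvd_of_inZeroComponentAt hp W Q hQfix hQord hℓ hℓp hℓΔ hℓc₄ A hA hQ0).elim hnd hnd'

/-- S15 is reduced to the primes `ℓ ≡ ±1 (mod p)`: it suffices to prove the conclusion of S15
under the additional hypothesis `p ∣ ℓ - 1 ∨ p ∣ ℓ + 1`. -/
theorem step3_of_pm_one
    {p : ℕ} (hp : p.Prime) (W : WeierstrassCurve ℤ)
    (Q : ((W.map (Int.castRingHom ℚ))⁄(AlgebraicClosure ℚ)).Point)
    (hQfix : ∀ σ : AlgebraicClosure ℚ ≃ₐ[ℚ] AlgebraicClosure ℚ, σ • Q = Q)
    (hQord : addOrderOf Q = p)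
    {ℓ : ℕ} (hℓ : ℓ.Prime) (hℓp : ℓ ≠ p) (hℓΔ : (ℓ : ℤ) ∣ W.Δ) (hℓc₄ : ¬ (ℓ : ℤ) ∣ W.c₄)
    (A : ValuationSubring (AlgebraicClosure ℚ)) (hA : A.LiesOverPrime ℓ)
    (hglobal : (p ∣ ℓ - 1 ∨ p ∣ ℓ + 1) → ¬ W.InZeroComponentAt A Q) :
    ¬ W.InZeroComponentAt A Q := fun hQ0 =>
  hglobal (loc_dvd_of_inZeroComponentAt hp W Q hQfix hQord hℓ hℓp hℓΔ hℓc₄ A hA hQ0) hQ0

/-- **NODE LOC** in the exact shape of `Fermat.Agent.S15.LocStatement` (row-lead skeleton):
`theorem locStatement : LocStatement := @Fermat.Agent.S15.H242.loc_statement`. -/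
theorem loc_statement
    {p : ℕ} (hp : p.Prime) (W : WeierstrassCurve ℤ) (_hΔ : W.Δ ≠ 0)
    (Q : ((W.map (Int.castRingHom ℚ))⁄(AlgebraicClosure ℚ)).Point)
    (hQfix : ∀ σ : AlgebraicClosure ℚ ≃ₐ[ℚ] AlgebraicClosure ℚ, σ • Q = Q)
    (hQord : addOrderOf Q = p)
    {ℓ : ℕ} (hℓ : ℓ.Prime) (hℓp : ℓ ≠ p) (hℓΔ : (ℓ : ℤ) ∣ W.Δ) (hℓc₄ : ¬ (ℓ : ℤ) ∣ W.c₄)
    (A : ValuationSubring (AlgebraicClosure ℚ)) (hA : A.LiesOverPrime ℓ)
    (hQ0 : W.InZeroComponentAt A Q) : p ∣ (ℓ - 1) * (ℓ + 1) :=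
  (loc_dvd_of_inZeroComponentAt hp W Q hQfix hQord hℓ hℓp hℓΔ hℓc₄ A hA hQ0).elim
    (fun h => h.mul_right _) (fun h => h.mul_left _)

end main

end Fermat.Agent.S15.H242
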