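import Fermat.Agent.S15.H242.Loc

/-!
# S15, piece LOC-U (helper242): the valuation of `ψ₂` along the multiples of `Q`

`ψ₂(P) = 2 y + a₁ x + a₃` (the `y`-derivative of the Weierstrass equation; `℘'` in the analytic
normalisation).  In the route of `coord/S15-PB-helper902.md` the value at the moduli point
`(E, ⟨Q⟩)` of the modular unit `u = Δ(τ)/Δ(pτ)` is

  `U(W, Q) = p¹² · ∏_{k=1}^{p-1} ψ₂(kQ)⁴ / Δ_W^{p-1}`.

Here we compute its `A`-adic size at a place `A` of bad reduction, purely on the elliptic curve: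

* `val_psi2_eq_one_of_inE0`  : `Q ∈ E⁰` of odd prime order `p` (a unit of `A`), `p ∤ k`
                               `⟹ v(ψ₂(kQ)) = 1` (it is a unit of `A`);
* `val_psi2_lt_one_of_not_inE0` : `Q ∉ E⁰`, `p • Q = 0`, `p ∤ k`  `⟹  v(ψ₂(kQ)) < 1`
                               (and `kQ` is an integral affine point);
* `val_modUnitValue_of_inE0`, `val_modUnitValue_of_not_inE0` : the resulting (in)equalities for
  `U(W, Q)`;
* `..._S15` : the same in the setting of S15 (`InZeroComponentAt`).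

No Tate curve, no isogeny.  (`v` is the multiplicative valuation of `A`: `v x ≤ 1 ↔ x ∈ A`.)
-/

set_option autoImplicit false
open WeierstrassCurve WeierstrassCurve.Affine

namespace Fermat.Agent.S15.H242

open Fermat.Agent.Lib.Red.H290
open Fermat.Agent.S05.SameRed (IntegralCoeffs InKer)

section general

variable {K : Type*} [Field K] [DecidableEq K] {κ : Type*} [Field κ] [DecidableEq κ]
variable {A : ValuationSubring K} {φ : A →+* κ} {W : Affine K} {Wκ : Affine κ}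

/-- `ψ₂(P) = 2 y + a₁ x + a₃`, and `0` at the origin. -/
def psi2 (W : Affine K) : W.Point → K
  | .zero => 0
  | .some x y _ => 2 * y + W.a₁ * x + W.a₃

omit [DecidableEq K] in
@[simp] lemma psi2_some {x y : K} (h : W.Nonsingular x y) :
    psi2 W (Point.some x y h) = 2 * y + W.a₁ * x + W.a₃ := rfl

omit [DecidableEq K] in
@[simp] lemma psi2_zero : psi2 W (0 : W.Point) = 0 := rfl

/-- The product `∏_{k=1}^{p-1} ψ₂(kQ)`. -/
noncomputable def psi2Prod (W : Affine K) (Q : W.Point) (p : ℕ) : K :=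
  ∏ k ∈ Finset.Ico 1 p, psi2 W (k • Q)

/-- The value `U(W, Q) = p¹² ∏_{k=1}^{p-1} ψ₂(kQ)⁴ / Δ^{p-1}` of the modular unit
`Δ(τ)/Δ(pτ)` at the moduli point `(W, ⟨Q⟩)`. -/
noncomputable def modUnitValue (W : Affine K) (Q : W.Point) (p : ℕ) : K :=
  (p : K) ^ 12 * psi2Prod W Q p ^ 4 / W.Δ ^ (p - 1)

section lemmas

variable (h : IsRedOf A φ W Wκ) (hφ : KerMax A φ)
include h hφ

omit [DecidableEq K] [DecidableEq κ] hφ in
/-- `ψ₂` of an integral point is integral and reduces to `ψ₂` of the reduced point. -/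
lemma psi2_mem_and_rd {x y : K} (hx : x ∈ A) (hy : y ∈ A) :
    2 * y + W.a₁ * x + W.a₃ ∈ A ∧
      rd A φ (2 * y + W.a₁ * x + W.a₃) = rd A φ y - Wκ.negY (rd A φ x) (rd A φ y) := by
  have e : 2 * y + W.a₁ * x + W.a₃ = y - W.negY x y := by
    simp only [Affine.negY]; ring
  rw [e]
  exact ⟨A.sub_mem hy (negY_mem h hx hy), by
    rw [rd_sub hy (negY_mem h hx hy), rd_negY h hx hy]⟩

/-- **Unit case.** If `Q ∈ E⁰` has odd prime order `p`, `p` a unit of `A`, and `p ∤ k`, then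
`kQ` is an integral affine point and `ψ₂(kQ)` is a unit of `A`. -/
theorem val_psi2_eq_one_of_inE0 {p : ℕ} (hp : p.Prime) (hp2 : p ≠ 2)
    (hv : A.valuation (p : K) = 1) {Q : W.Point} (hQ : InE0 A φ Wκ Q) (hord : addOrderOf Q = p)
    {k : ℕ} (hk : ¬ p ∣ k) : A.valuation (psi2 W (k • Q)) = 1 := by
  have hcop : (addOrderOf Q).Coprime k := by
    rw [hord]; exact (Nat.Prime.coprime_iff_not_dvd hp).mpr hk
  have hordP : addOrderOf (k • Q) = p := by rw [hcop.addOrderOf_nsmul, hord]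
  have hP0 := inE0_nsmul h hφ hQ k
  have hredord := addOrderOf_red0 h hφ hp hv hP0 hordP
  rcases hkQ : k • Q with _ | ⟨x, y, hxy⟩
  · rw [hkQ] at hordP
    rw [show (Point.zero : W.Point) = 0 from rfl, addOrderOf_zero] at hordP
    exact absurd hordP hp.one_lt.ne
  · rw [hkQ] at hP0 hredord
    have hx : x ∈ A := by
      by_contra hx
      rw [red0_some_of_not_mem hxy hx, addOrderOf_zero] at hredord
      exact hp.one_lt.ne hredord
    have hy : y ∈ A := y_mem_of_x_mem h hxy.1 hx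
    have hns := hP0 hx
    rw [red0_some_of_mem hxy hx hns] at hredord
    obtain ⟨hmem, hrd⟩ := psi2_mem_and_rd h hx hy
    rw [psi2_some]
    refine (rd_ne_zero_iff hφ hmem).mp ?_
    rw [hrd]
    intro h0
    -- the reduced point would be `2`-torsion
    have hyy : rd A φ y = Wκ.negY (rd A φ x) (rd A φ y) := sub_eq_zero.mp h0
    have h2 : (2 : ℕ) • (Point.some (rd A φ x) (rd A φ y) hns : Wκ.Point) = 0 := by
      rw [two_nsmul]
      exact Point.add_of_Y_eq rfl hyy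
    have hdvd := addOrderOf_dvd_of_nsmul_eq_zero h2
    rw [hredord] at hdvd
    exact hp2 ((Nat.prime_dvd_prime_iff_eq hp Nat.prime_two).mp hdvd)

/-- If `Q ∉ E⁰` and `p • Q = 0` with `p` prime, then no multiple `kQ`, `p ∤ k`, lies in `E⁰`. -/
theorem not_inE0_nsmul {p : ℕ} (hp : p.Prime) {Q : W.Point} (hQ : ¬ InE0 A φ Wκ Q)
    (hpQ : p • Q = 0) {k : ℕ} (hk : ¬ p ∣ k) : ¬ InE0 A φ Wκ (k • Q) := by
  intro hkQ
  apply hQ
  have hcop : Nat.Coprime k p := ((Nat.Prime.coprime_iff_not_dvd hp).mpr hk).symm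
  -- `k' k ≡ 1 mod p`
  obtain ⟨k', -, hk'⟩ := Nat.exists_mul_mod_eq_one_of_coprime hcop hp.one_lt
  have hQeq : (k * k') • Q = Q := by
    conv_rhs => rw [← one_nsmul Q]
    have hmod : (k * k') % p = 1 % p := by rw [hk', Nat.mod_eq_of_lt hp.one_lt]
    obtain ⟨c, hc⟩ : ∃ c, k * k' = 1 + p * c := by
      refine ⟨(k * k') / p, ?_⟩
      have := Nat.div_add_mod (k * k') p
      rw [hk'] at this
      omega
    rw [hc, add_nsmul, mul_nsmul, hpQ, smul_zero, add_zero]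
  have := inE0_nsmul h hφ hkQ k'
  rwa [← mul_nsmul', mul_comm k' k, hQeq] at this

omit [DecidableEq κ] in
/-- At an integral point with singular reduction, `ψ₂` lies in the maximal ideal. -/
lemma val_psi2_lt_one_of_singular {x y : K} (hxy : W.Nonsingular x y) (hx : x ∈ A)
    (hsing : ¬ Wκ.Nonsingular (rd A φ x) (rd A φ y)) :
    A.valuation (2 * y + W.a₁ * x + W.a₃) < 1 := by
  have hy : y ∈ A := y_mem_of_x_mem h hxy.1 hx
  obtain ⟨hmem, hrd⟩ := psi2_mem_and_rd h hx hy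
  refine (rd_eq_zero_iff hφ hmem).mp ?_
  rw [hrd, sub_eq_zero]
  by_contra hne
  apply hsing
  rw [Affine.nonsingular_iff]
  exact ⟨rd_equation h hx hy hxy.1, Or.inr hne⟩

/-- **Non-unit case.** If `Q ∉ E⁰`, `p • Q = 0` with `p` prime and `p ∤ k`, then `kQ` is an
integral affine point and `ψ₂(kQ)` lies in the maximal ideal of `A`. -/
theorem val_psi2_lt_one_of_not_inE0 {p : ℕ} (hp : p.Prime) {Q : W.Point}
    (hQ : ¬ InE0 A φ Wκ Q) (hpQ : p • Q = 0) {k : ℕ} (hk : ¬ p ∣ k) :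
    A.valuation (psi2 W (k • Q)) < 1 := by
  have hkQ := not_inE0_nsmul h hφ hp hQ hpQ hk
  rcases hP : k • Q with _ | ⟨x, y, hxy⟩
  · rw [hP] at hkQ
    exact absurd trivial hkQ
  · rw [hP] at hkQ
    rw [inE0_some_iff] at hkQ
    push Not at hkQ
    exact val_psi2_lt_one_of_singular h hφ hxy hkQ.1 hkQ.2

/-- Unit case for the product. -/
theorem val_psi2Prod_of_inE0 {p : ℕ} (hp : p.Prime) (hp2 : p ≠ 2)
    (hv : A.valuation (p : K) = 1) {Q : W.Point} (hQ : InE0 A φ Wκ Q) (hord : addOrderOf Q = p) :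
    A.valuation (psi2Prod W Q p) = 1 := by
  unfold psi2Prod
  rw [map_prod]
  refine Finset.prod_eq_one fun k hk => ?_
  rw [Finset.mem_Ico] at hk
  exact val_psi2_eq_one_of_inE0 h hφ hp hp2 hv hQ hord
    (Nat.not_dvd_of_pos_of_lt (by omega) hk.2)

/-- Non-unit case for the product. -/
theorem val_psi2Prod_of_not_inE0 {p : ℕ} (hp : p.Prime) {Q : W.Point}
    (hQ : ¬ InE0 A φ Wκ Q) (hpQ : p • Q = 0) :
    A.valuation (psi2Prod W Q p) < 1 := by
  unfold psi2Prod
  rw [map_prod]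
  have h1 : (1 : ℕ) ∈ Finset.Ico 1 p := Finset.mem_Ico.mpr ⟨le_rfl, hp.one_lt⟩
  have hlt : ∀ k ∈ Finset.Ico 1 p, A.valuation (psi2 W (k • Q)) < 1 := fun k hk => by
    rw [Finset.mem_Ico] at hk
    exact val_psi2_lt_one_of_not_inE0 h hφ hp hQ hpQ (Nat.not_dvd_of_pos_of_lt (by omega) hk.2)
  rw [← Finset.mul_prod_erase _ _ h1]
  calc A.valuation (psi2 W (1 • Q)) * ∏ k ∈ (Finset.Ico 1 p).erase 1, A.valuation (psi2 W (k • Q))
      ≤ A.valuation (psi2 W (1 • Q)) * 1 := by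
        gcongr
        exact Finset.prod_le_one' fun k hk => (hlt k (Finset.mem_of_mem_erase hk)).le
    _ < 1 := by rw [mul_one]; exact hlt 1 h1

/-- **Unit case for `U(W, Q)`:** `v(U) = v(Δ)^{-(p-1)}`. -/
theorem val_modUnitValue_of_inE0 {p : ℕ} (hp : p.Prime) (hp2 : p ≠ 2)
    (hv : A.valuation (p : K) = 1) {Q : W.Point} (hQ : InE0 A φ Wκ Q) (hord : addOrderOf Q = p) :
    A.valuation (modUnitValue W Q p) = (A.valuation W.Δ ^ (p - 1))⁻¹ := by
  unfold modUnitValue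
  rw [map_div₀, map_mul, map_pow, map_pow, map_pow, hv,
    val_psi2Prod_of_inE0 h hφ hp hp2 hv hQ hord, one_pow, one_pow, one_mul, one_div]

/-- **Non-unit case for `U(W, Q)`:** `v(U) < v(Δ)^{-(p-1)}` (when `Δ ≠ 0`). -/
theorem val_modUnitValue_of_not_inE0 {p : ℕ} (hp : p.Prime) (hΔ : W.Δ ≠ 0)
    (hv : A.valuation (p : K) = 1) {Q : W.Point} (hQ : ¬ InE0 A φ Wκ Q) (hpQ : p • Q = 0) :
    A.valuation (modUnitValue W Q p) < (A.valuation W.Δ ^ (p - 1))⁻¹ := by
  unfold modUnitValue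
  have hlt := val_psi2Prod_of_not_inE0 h hφ hp hQ hpQ
  have hΔv : 0 < A.valuation W.Δ ^ (p - 1) :=
    pow_pos (zero_lt_iff.mpr ((Valuation.ne_zero_iff _).mpr hΔ)) _
  rw [map_div₀, map_mul, map_pow, map_pow, map_pow, hv, one_pow, one_mul, div_eq_mul_inv]
  have h4 : A.valuation (psi2Prod W Q p) ^ 4 < 1 := pow_lt_one₀ zero_le' hlt (by norm_num)
  calc A.valuation (psi2Prod W Q p) ^ 4 * (A.valuation W.Δ ^ (p - 1))⁻¹
      < 1 * (A.valuation W.Δ ^ (p - 1))⁻¹ :=
        mul_lt_mul_of_pos_right h4 (inv_pos.mpr hΔv)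
    _ = (A.valuation W.Δ ^ (p - 1))⁻¹ := one_mul _

end lemmas

end general

section S15

variable (W : WeierstrassCurve ℤ) (A : ValuationSubring (AlgebraicClosure ℚ))

/-- Converse bridge: `InE0` implies the Prelude's `InZeroComponentAt`. -/
lemma inZeroComponentAt_of_inE0
    {Q : ((W.map (Int.castRingHom ℚ))⁄(AlgebraicClosure ℚ)).Point}
    (hQ : InE0 A (IsLocalRing.residue A) (W⁄(IsLocalRing.ResidueField A)) Q) :
    W.InZeroComponentAt A Q := by
  rcases Q with _ | ⟨x, y, h⟩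
  · exact Or.inl rfl
  · refine Or.inr ⟨x, y, h, rfl, ?_⟩
    by_cases hx : x ∈ A
    · have hred := isRedOf_int A W (IsLocalRing.residue A)
      have hy : y ∈ A := y_mem_of_x_mem hred h.1 hx
      refine Or.inr ⟨hx, hy, ?_⟩
      have := hQ hx
      rw [rd_of_mem hx, rd_of_mem hy] at this
      exact this
    · exact Or.inl hx

lemma inZeroComponentAt_iff_inE0
    {Q : ((W.map (Int.castRingHom ℚ))⁄(AlgebraicClosure ℚ)).Point} :
    W.InZeroComponentAt A Q ↔
      InE0 A (IsLocalRing.residue A) (W⁄(IsLocalRing.ResidueField A)) Q :=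
  ⟨inE0_of_inZeroComponentAt W A, inZeroComponentAt_of_inE0 W A⟩

/-- **LOC-U, zero component.** In the setting of S15 (no rationality of `Q` needed): if `Q` of odd
prime order `p ≠ ℓ` is in the zero component at `A ∣ ℓ`, then `v_A(U(W,Q)) = v_A(Δ)^{-(p-1)}`. -/
theorem val_modUnitValue_of_inZeroComponentAt {p : ℕ} (hp : p.Prime) (hp2 : p ≠ 2)
    (Q : ((W.map (Int.castRingHom ℚ))⁄(AlgebraicClosure ℚ)).Point) (hQord : addOrderOf Q = p)
    {ℓ : ℕ} (hℓ : ℓ.Prime) (hℓp : ℓ ≠ p) (hA : A.LiesOverPrime ℓ)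
    (hQ0 : W.InZeroComponentAt A Q) :
    A.valuation (modUnitValue ((W.map (Int.castRingHom ℚ))⁄(AlgebraicClosure ℚ)) Q p) =
      (A.valuation ((W.map (Int.castRingHom ℚ))⁄(AlgebraicClosure ℚ)).Δ ^ (p - 1))⁻¹ := by
  classical
  exact val_modUnitValue_of_inE0 (isRedOf_int A W (IsLocalRing.residue A)) (kerMax_residue A)
    hp hp2 (val_natCast_eq_one A hA hℓ hp hℓp) (inE0_of_inZeroComponentAt W A hQ0) hQord

/-- **LOC-U, non-zero component.** If `Q` of prime order `p ≠ ℓ` is NOT in the zero component at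
`A ∣ ℓ`, then `v_A(U(W,Q)) < v_A(Δ)^{-(p-1)}`. -/
theorem val_modUnitValue_of_not_inZeroComponentAt {p : ℕ} (hp : p.Prime) (hΔ : W.Δ ≠ 0)
    (Q : ((W.map (Int.castRingHom ℚ))⁄(AlgebraicClosure ℚ)).Point) (hQord : addOrderOf Q = p)
    {ℓ : ℕ} (hℓ : ℓ.Prime) (hℓp : ℓ ≠ p) (hA : A.LiesOverPrime ℓ)
    (hQ0 : ¬ W.InZeroComponentAt A Q) :
    A.valuation (modUnitValue ((W.map (Int.castRingHom ℚ))⁄(AlgebraicClosure ℚ)) Q p) <
      (A.valuation ((W.map (Int.castRingHom ℚ))⁄(AlgebraicClosure ℚ)).Δ ^ (p - 1))⁻¹ := by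
  classical
  refine val_modUnitValue_of_not_inE0 (isRedOf_int A W (IsLocalRing.residue A))
    (kerMax_residue A) hp ?_ (val_natCast_eq_one A hA hℓ hp hℓp)
    (fun h => hQ0 (inZeroComponentAt_of_inE0 W A h))
    (by rw [← hQord]; exact addOrderOf_nsmul_eq_zero Q)
  show (W.map ((algebraMap ℚ (AlgebraicClosure ℚ)).comp (Int.castRingHom ℚ))).Δ ≠ 0
  rw [WeierstrassCurve.map_Δ]
  simpa using hΔ

end S15

end Fermat.Agent.S15.H242
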