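import Fermat.Agent.S15.H242.OggFricke
import Fermat.Agent.Lib.FF398.Hecke
import Fermat.Agent.Lib.RR.H383.FF1OfFinite
import Fermat.Agent.S24.H84.OrdDiff

/-!
# S15 / CUSP, nodes C9b + C9 (helper242): Ogg's lower bound for the order of the cuspidal class

Level `p` prime, `F = ℚ̄(X₀(p)) ⊆ ℚ̄((q))`, `u = Δ(q)/Δ(q^p)`, `n = eisensteinNumerator p`.

* `dvd_twelve_of_pow_eq_unit` : if `f ^ d = κ · u` with `f ∈ F`, `κ ∈ ℚ̄ˣ`, `d > 0`, then `d ∣ 12`.
  (Normalise the leading coefficient of `f` to `1`; then `f` is fixed by the Galois action on the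
  coefficients, hence so is the constant `f · w(f)`, whose `d`-th power is `u · w(u) = p¹²`;
  a rational number whose `d`-th power is `p¹²` exists only if `d ∣ 12`.)
* `eq_algebraMap_of_ord_eq_zero_FF` (C9b) : a function without zeros and poles is constant.
* `eisensteinNumerator_dvd_of_nsmul_eq_zero` (C9) : if `div u = (p - 1)·((P₀) - (P∞))` and
  `m • cl((P₀) - (P∞)) = 0` then `n ∣ m`.
-/

set_option autoImplicit false

noncomputable section

open ModularCurve HahnSeries AlgebraicCurve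

namespace Fermat.Agent.S15.H242

open Fermat.Agent.S24 Fermat.Agent.S24.H997 Fermat.Agent.A2.H528

/-! ### Elementary lemmas -/

theorem isGalois_Qbar_ogg : IsGalois ℚ (AlgebraicClosure ℚ) := by
  have : Algebra.IsAlgebraic ℚ (AlgebraicClosure ℚ) := AlgebraicClosure.isAlgebraic ℚ
  have : IsAlgClosure ℚ (AlgebraicClosure ℚ) := ⟨inferInstance, inferInstance⟩
  exact IsAlgClosure.isGalois ℚ (AlgebraicClosure ℚ)

/-- A rational number whose `d`-th power is `p¹²` exists only if `d ∣ 12`. -/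
theorem dvd_twelve_of_rat_pow_eq {p d : ℕ} (hp : p.Prime) (c : ℚ)
    (h : c ^ d = (p : ℚ) ^ 12) : d ∣ 12 := by
  have := Fact.mk hp
  have h1 := congrArg (padicValRat p) h
  rw [padicValRat.pow, padicValRat.pow, padicValRat.self hp.one_lt] at h1
  have h2 : ((d : ℤ)) ∣ 12 := ⟨padicValRat p c, by rw [h1]; norm_num⟩
  exact_mod_cast h2

theorem leadingCoeff_pow_laurent (x : LaurentSeries Kbar) (d : ℕ) :
    (x ^ d).leadingCoeff = x.leadingCoeff ^ d := by
  induction d with
  | zero => simp [HahnSeries.leadingCoeff_one]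
  | succ d ih => rw [pow_succ, HahnSeries.leadingCoeff_mul, ih, pow_succ]

theorem leadingCoeff_algebraMap_laurent (c : Kbar) :
    (algebraMap Kbar (LaurentSeries Kbar) c).leadingCoeff = c := by
  rw [algebraMap_laurentSeries_eq_single, HahnSeries.leadingCoeff_of_single]

/-- A `d`-th root of unity in `ℚ̄((q))` with leading coefficient `1` is `1`. -/
theorem eq_one_of_pow_eq_one_of_leadingCoeff {d : ℕ} (hd : 0 < d) (ζ : LaurentSeries Kbar)
    (h : ζ ^ d = 1) (hl : ζ.leadingCoeff = 1) : ζ = 1 := by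
  have : NeZero (d : ℚ) := ⟨by exact_mod_cast hd.ne'⟩
  have : NeZero d := ⟨hd.ne'⟩
  obtain ⟨ω, hω⟩ := HasEnoughRootsOfUnity.exists_primitiveRoot (AlgebraicClosure ℚ) d
  have hω' : IsPrimitiveRoot (algebraMap Kbar (LaurentSeries Kbar) ω) d :=
    hω.map_of_injective (algebraMap Kbar (LaurentSeries Kbar)).injective
  obtain ⟨i, -, hi⟩ := hω'.eq_pow_of_pow_eq_one h
  rw [← hi, ← map_pow] at hl ⊢
  rw [leadingCoeff_algebraMap_laurent] at hl
  rw [hl, map_one]

/-! ### The key lemma -/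

section Key

variable (p : ℕ) [NeZero p]

theorem unit_coe_ne_zero : coeffEmb Kbar (modularUnitSeries p) ≠ 0 := by
  intro h
  exact modularUnitSeries_ne_zero p ((coeffEmb Kbar).injective (by rw [h, map_zero]))

theorem leadingCoeff_unit_coe : (coeffEmb Kbar (modularUnitSeries p)).leadingCoeff = 1 := by
  rw [coeffEmb, inf_coeffMap_leadingCoeff (algebraMap ℚ Kbar).injective,
    (isMonicOfOrder_modularUnitSeries p).2, map_one]

/-- **Key lemma.**  If `f ^ d = κ · u` in `ℚ̄(X₀(p))` with `κ ≠ 0`, then `d ∣ 12`. -/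
theorem dvd_twelve_of_pow_eq_unit (hp : p.Prime) (u : FF p)
    (hu : (u : LaurentSeries Kbar) = coeffEmb Kbar (modularUnitSeries p))
    (f : FF p) {d : ℕ} (hd : 0 < d) (κ : Kbar) (hκ : κ ≠ 0)
    (hf : f ^ d = algebraMap Kbar (FF p) κ * u) : d ∣ 12 := by
  have hu0 : u ≠ 0 := by
    intro h
    apply unit_coe_ne_zero p
    rw [← hu, h]
    rfl
  -- step 1: normalise the leading coefficient
  set a : Kbar := (f : LaurentSeries Kbar).leadingCoeff with ha
  have hfL : (f : LaurentSeries Kbar) ^ d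
      = algebraMap Kbar (LaurentSeries Kbar) κ * coeffEmb Kbar (modularUnitSeries p) := by
    have := congrArg (fun x : FF p => (x : LaurentSeries Kbar)) hf
    rw [← hu]
    exact this
  have haκ : a ^ d = κ := by
    have := congrArg HahnSeries.leadingCoeff hfL
    rw [leadingCoeff_pow_laurent, HahnSeries.leadingCoeff_mul, leadingCoeff_algebraMap_laurent,
      leadingCoeff_unit_coe, mul_one] at this
    exact this
  have ha0 : a ≠ 0 := by
    intro h
    rw [h, zero_pow hd.ne'] at haκ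
    exact hκ haκ.symm
  have haF : algebraMap Kbar (FF p) a ≠ 0 := by
    rw [Ne, map_eq_zero]; exact ha0
  set v : FF p := f * (algebraMap Kbar (FF p) a)⁻¹ with hv
  have hvd : v ^ d = u := by
    rw [hv, mul_pow, hf, inv_pow, ← map_pow, haκ]
    have hκF : algebraMap Kbar (FF p) κ ≠ 0 := by
      rw [Ne, map_eq_zero]; exact hκ
    field_simp
  have hvL : (v : LaurentSeries Kbar) * algebraMap Kbar (LaurentSeries Kbar) a
      = (f : LaurentSeries Kbar) := by
    have h1 : v * algebraMap Kbar (FF p) a = f := by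
      rw [hv, inv_mul_cancel_right₀ haF]
    exact congrArg (fun x : FF p => (x : LaurentSeries Kbar)) h1
  have hvlc : (v : LaurentSeries Kbar).leadingCoeff = 1 := by
    have := congrArg HahnSeries.leadingCoeff hvL
    rw [HahnSeries.leadingCoeff_mul, leadingCoeff_algebraMap_laurent] at this
    exact mul_right_cancel₀ ha0 (by rw [this, one_mul])
  have hv0 : v ≠ 0 := by
    intro h
    rw [h, zero_pow hd.ne'] at hvd
    exact hu0 hvd.symm
  have hvL0 : (v : LaurentSeries Kbar) ≠ 0 := fun h => hv0 (Subtype.ext h)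
  -- step 2: `v` is Galois-fixed
  have hgal : ∀ σ : Kbar ≃ₐ[ℚ] Kbar, gal p σ v = v := by
    intro σ
    have hσu : gal p σ u = u := by
      apply Subtype.ext
      show coeffMap (σ : Kbar →+* Kbar) (u : LaurentSeries Kbar) = _
      rw [hu, coeffMap_coeffEmb]
    have h1 : (gal p σ v) ^ d = u := by
      rw [← map_pow, hvd, hσu]
    have hlc : ((gal p σ v : FF p) : LaurentSeries Kbar).leadingCoeff = 1 := by
      show (coeffMap (σ : Kbar →+* Kbar) (v : LaurentSeries Kbar)).leadingCoeff = 1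
      rw [inf_coeffMap_leadingCoeff (σ : Kbar →+* Kbar).injective, hvlc, map_one]
    set ζ : LaurentSeries Kbar := ((gal p σ v : FF p) : LaurentSeries Kbar)
      * (v : LaurentSeries Kbar)⁻¹ with hζ
    have hζv : ζ * (v : LaurentSeries Kbar) = ((gal p σ v : FF p) : LaurentSeries Kbar) := by
      rw [hζ, inv_mul_cancel_right₀ hvL0]
    have hζd : ζ ^ d = 1 := by
      have e1 : ((gal p σ v : FF p) : LaurentSeries Kbar) ^ d = (u : LaurentSeries Kbar) :=
        congrArg (fun x : FF p => (x : LaurentSeries Kbar)) h1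
      have e2 : (v : LaurentSeries Kbar) ^ d = (u : LaurentSeries Kbar) :=
        congrArg (fun x : FF p => (x : LaurentSeries Kbar)) hvd
      have huL0 : (u : LaurentSeries Kbar) ≠ 0 := fun h => hu0 (Subtype.ext h)
      rw [hζ, mul_pow, inv_pow, e1, e2, mul_inv_cancel₀ huL0]
    have hζlc : ζ.leadingCoeff = 1 := by
      have := congrArg HahnSeries.leadingCoeff hζv
      rw [HahnSeries.leadingCoeff_mul, hvlc, mul_one, hlc] at this
      exact this
    have hζ1 := eq_one_of_pow_eq_one_of_leadingCoeff hd ζ hζd hζlc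
    apply Subtype.ext
    rw [← hζv, hζ1, one_mul]
  -- step 3: the constant `v * w(v)`
  have hwu := wF_mul_self_of_coe_eq p u hu
  set c' : FF p := v * wF p v with hc'
  have hc'd : c' ^ d = algebraMap Kbar (FF p) ((p : Kbar) ^ 12) := by
    rw [hc', mul_pow, ← map_pow, hvd, mul_comm, hwu]
  have hc'gal : ∀ σ : Kbar ≃ₐ[ℚ] Kbar, gal p σ c' = c' := by
    intro σ
    rw [hc', map_mul, ← wF_gal, hgal σ]
  have hp0 : ((p : Kbar) ^ 12) ≠ 0 := pow_ne_zero 12 (by exact_mod_cast NeZero.ne p)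
  have halg : IsAlgebraic Kbar c' := by
    refine ⟨Polynomial.X ^ d - Polynomial.C ((p : Kbar) ^ 12), ?_, ?_⟩
    · intro h
      have h1 := congrArg (fun q : Polynomial Kbar => q.coeff d) h
      simp only [Polynomial.coeff_sub, Polynomial.coeff_X_pow, if_true, Polynomial.coeff_C,
        hd.ne', if_false, sub_zero, Polynomial.coeff_zero] at h1
      exact one_ne_zero h1
    · rw [map_sub, map_pow, Polynomial.aeval_X, Polynomial.aeval_C, hc'd, sub_self]
  obtain ⟨c, hc⟩ := Fermat.Agent.S24.H84.mem_range_algebraMap_of_isAlgebraic halg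
  have hcfix : ∀ σ : Kbar ≃ₐ[ℚ] Kbar, σ c = c := by
    intro σ
    have h1 := hc'gal σ
    rw [← hc, gal_algebraMap] at h1
    exact (algebraMap Kbar (FF p)).injective h1
  have := isGalois_Qbar_ogg
  obtain ⟨c₀, hc₀⟩ := (InfiniteGalois.mem_range_algebraMap_iff_fixed c).mpr hcfix
  have hcd : c ^ d = (p : Kbar) ^ 12 := by
    apply (algebraMap Kbar (FF p)).injective
    rw [map_pow, hc, hc'd]
  have hc₀d : c₀ ^ d = (p : ℚ) ^ 12 := by
    apply (algebraMap ℚ Kbar).injective
    rw [map_pow, hc₀, hcd, map_pow, map_natCast]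
  exact dvd_twelve_of_rat_pow_eq hp c₀ hc₀d

end Key

/-! ### C9b and C9 -/

/-- **C9b.** A function without zeros and poles is constant. -/
theorem eq_algebraMap_of_ord_eq_zero_FF (N : ℕ) [NeZero N] (f : FF N)
    (h : ∀ P : Place Kbar (FF N), P.ord f = 0) : ∃ a : Kbar, f = algebraMap Kbar (FF N) a := by
  obtain ⟨a, ha⟩ := Fermat.Agent.Lib.RR.H383.eq_algebraMap_of_forall_ord_eq_zero
    (Fermat.Agent.Lib.FF398.transcendental_jF N) h
  exact ⟨a, ha.symm⟩

theorem nsmul_mk_eq_zero_iff (N : ℕ) (D : Divisor.degZero (K := Kbar) (F := FF N)) (m : ℕ) :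
    m • (Pic0.mk D : JZero N) = 0 ↔
      ∃ f : FF N, f ≠ 0 ∧ ∀ v : Place Kbar (FF N), (m : ℤ) * (D : Divisor Kbar (FF N)) v = v.ord f := by
  have h1 : m • (Pic0.mk D : JZero N) = Pic0.mk (m • D) := rfl
  rw [h1, Pic0.mk, QuotientAddGroup.eq_zero_iff, AddSubgroup.mem_addSubgroupOf,
    Divisor.mem_principal]
  unfold Divisor.IsPrincipal
  refine exists_congr fun f => and_congr_right fun _ => forall_congr' fun v => ?_
  rw [AddSubgroup.coe_nsmul, Finsupp.smul_apply, nsmul_eq_mul]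

/-- **C9 (Ogg's lower bound).**  Let `D` be a divisor of degree `0` on `X₀(p)` with
`div u = (p - 1) · D` for the modular unit `u = Δ(q)/Δ(q^p)` (e.g. `D = (0) - (∞)`).
If `m • cl(D) = 0`, then `n = (p - 1)/gcd(p - 1, 12)` divides `m`. -/
theorem eisensteinNumerator_dvd_of_nsmul_eq_zero (p : ℕ) [NeZero p] (hp : p.Prime) (u : FF p)
    (hu : (u : LaurentSeries Kbar) = coeffEmb Kbar (modularUnitSeries p))
    (D : Divisor.degZero (K := Kbar) (F := FF p))
    (hdiv : ∀ v : Place Kbar (FF p), v.ord u = ((p : ℤ) - 1) * (D : Divisor Kbar (FF p)) v)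
    (m : ℕ) (hm : m • (Pic0.mk D : JZero p) = 0) : eisensteinNumerator p ∣ m := by
  have hu0 : u ≠ 0 := by
    intro h
    apply unit_coe_ne_zero p
    rw [← hu, h]
    rfl
  have hp1 : 0 < p - 1 := by have := hp.two_le; omega
  have hcast : ((p - 1 : ℕ) : ℤ) = (p : ℤ) - 1 := by
    rw [Nat.cast_sub hp.one_le]; simp
  -- `(p - 1) • c = 0`
  have hpc : (p - 1) • (Pic0.mk D : JZero p) = 0 := by
    rw [nsmul_mk_eq_zero_iff]
    exact ⟨u, hu0, fun v => by rw [hcast, hdiv v]⟩
  set c : JZero p := Pic0.mk D with hc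
  set o := addOrderOf c with ho
  have ho1 : o ∣ p - 1 := addOrderOf_dvd_of_nsmul_eq_zero hpc
  have hom : o ∣ m := addOrderOf_dvd_of_nsmul_eq_zero hm
  have ho0 : 0 < o := Nat.pos_of_dvd_of_pos ho1 hp1
  obtain ⟨d, hd⟩ := ho1
  have hd0 : 0 < d := by
    rcases Nat.eq_zero_or_pos d with h | h
    · rw [h, mul_zero] at hd; omega
    · exact h
  obtain ⟨f, hf0, hf⟩ := (nsmul_mk_eq_zero_iff p D o).mp (addOrderOf_nsmul_eq_zero c)
  -- `f ^ d / u` has trivial divisor
  have hg : ∀ v : Place Kbar (FF p), v.ord (f ^ d * u⁻¹) = 0 := by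
    intro v
    rw [v.ord_mul (pow_ne_zero d hf0) (inv_ne_zero hu0), v.ord_inv, ← zpow_natCast, v.ord_zpow,
      ← hf v, hdiv v, ← hcast, hd]
    push_cast
    ring
  obtain ⟨κ, hκ⟩ := eq_algebraMap_of_ord_eq_zero_FF p (f ^ d * u⁻¹) hg
  have hfd : f ^ d = algebraMap Kbar (FF p) κ * u := by
    rw [← hκ, inv_mul_cancel_right₀ hu0]
  have hκ0 : κ ≠ 0 := by
    rintro rfl
    rw [map_zero, zero_mul] at hfd
    exact pow_ne_zero d hf0 hfd
  have hd12 : d ∣ 12 := dvd_twelve_of_pow_eq_unit p hp u hu f hd0 κ hκ0 hfd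
  -- arithmetic
  have hdG : d ∣ Nat.gcd (p - 1) 12 := Nat.dvd_gcd ⟨o, by rw [hd, mul_comm]⟩ hd12
  obtain ⟨e, he⟩ := hdG
  have hG : Nat.gcd (p - 1) 12 ∣ p - 1 := Nat.gcd_dvd_left _ _
  have hGpos : 0 < Nat.gcd (p - 1) 12 := Nat.gcd_pos_of_pos_right _ (by norm_num)
  have hn : eisensteinNumerator p * Nat.gcd (p - 1) 12 = p - 1 := by
    unfold eisensteinNumerator
    exact Nat.div_mul_cancel hG
  have hoe : o = eisensteinNumerator p * e := by
    have h1 : o * d = eisensteinNumerator p * e * d := by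
      rw [← hd, ← hn, he]; ring
    exact Nat.eq_of_mul_eq_mul_right hd0 h1
  exact Dvd.dvd.trans ⟨e, hoe⟩ hom

/-! ### C9a in the shape of the CUSP interface -/

theorem qExpand_jq_congr {d d' : ℕ} [h : NeZero d] [h' : NeZero d'] (e : d = d') :
    qExpand ℚ d jq = qExpand ℚ d' jq := by
  subst e
  rfl

/-- **C9a.**  The Atkin–Lehner involution of `ℚ̄(X₀(p))`: it swaps `j(q)` and `j(q^p)`, commutes
with the Galois action on the coefficients and maps the modular unit `u` to `p¹² u⁻¹`. -/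
theorem exists_atkinLehner_of_mem (p : ℕ) [NeZero p]
    (hu : coeffEmb Kbar (modularUnitSeries p) ∈ modularFunctionFieldBar p) :
    ∃ w : FF p ≃ₐ[Kbar] FF p,
      (∀ f : FF p, (f : LaurentSeries Kbar) = coeffEmb Kbar jq →
        ((w f : FF p) : LaurentSeries Kbar) = coeffEmb Kbar (qExpand ℚ p jq)) ∧
      (∀ f : FF p, (f : LaurentSeries Kbar) = coeffEmb Kbar (qExpand ℚ p jq) →
        ((w f : FF p) : LaurentSeries Kbar) = coeffEmb Kbar jq) ∧
      (∀ f : FF p, w (w f) = f) ∧
      (∀ (σ : Kbar ≃ₐ[ℚ] Kbar) (f : FF p),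
        w (arithmeticGalois (modularFunctionFieldFull p) σ • f) =
          arithmeticGalois (modularFunctionFieldFull p) σ • w f) ∧
      w ⟨_, hu⟩ = algebraMap Kbar (FF p) ((p : Kbar) ^ 12) * (⟨_, hu⟩ : FF p)⁻¹ := by
  have h1p : NeZero (p / 1) := neZero_div p (one_dvd p)
  have hpp : NeZero (p / p) := neZero_div p dvd_rfl
  have hA : wF p (jFd p 1 (one_dvd p)) = jFd p p dvd_rfl := by
    rw [wF_jFd p 1 (one_dvd p)]
    apply Subtype.ext
    rw [coe_jFd, coe_jFd, qExpand_jq_congr (Nat.div_one p)]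
  have hB : wF p (jFd p p dvd_rfl) = jFd p 1 (one_dvd p) := by
    rw [← hA, wF_wF]
  refine ⟨wF p, ?_, ?_, wF_wF p, ?_, ?_⟩
  · intro f hf
    have hf' : f = jFd p 1 (one_dvd p) := by
      apply Subtype.ext
      rw [hf, coe_jFd, qExpand_one_apply]
    rw [hf', hA, coe_jFd]
  · intro f hf
    have hf' : f = jFd p p dvd_rfl := by
      apply Subtype.ext
      rw [hf, coe_jFd]
    rw [hf', hB, coe_jFd, qExpand_one_apply]
  · intro σ f
    exact wF_gal p σ f
  · have h := wF_mul_self_of_coe_eq p ⟨_, hu⟩ rfl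
    have hu0 : (⟨_, hu⟩ : FF p) ≠ 0 := by
      intro h0
      apply unit_coe_ne_zero p
      exact congrArg (fun x : FF p => (x : LaurentSeries Kbar)) h0
    rw [← h, mul_inv_cancel_right₀ hu0]

end Fermat.Agent.S15.H242
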