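import Fermat.Agent.S13.H175.Minkowski
import Fermat.Agent.S56.H186.TameQbar
import Fermat.Agent.Lib.Cheb.H643.FrobAt
import Fermat.Agent.Lib.Cheb.H476.FrobConj

/-!
# S15 / DESC, piece BASE-e (helper242): characters of `Gal(ℚ̄/ℚ)` unramified outside `p`

Class field theory of `ℚ` in the elementary form needed for the `ℤ/r`-pieces of the Eisenstein
descent (coord/S15-DESC.md, BASE-e).  `r ≠ p` primes, `H` a commutative group of exponent `r`.
A *character* is a homomorphism `χ : Gal(ℚ̄/ℚ) →* H` of finite level.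

* `eq_one_of_unramified`            : unramified at every prime ⇒ trivial (Minkowski).
* `pow_pred_eq_one_of_mem_inertia`  : on the inertia group at `p` a character satisfies
  `χ σ ^ (p - 1) = 1`  (Frobenius acts on tame inertia by the `p`-th power).
* `eq_one_of_unramifiedOutside_of_coprime` : unramified outside `p` and `gcd (r, p - 1) = 1`
  ⇒ trivial.
* `exists_pow_mul_pow_eq_one`       : two characters with values in a group of prime order `r`,
  unramified outside `p`, are linearly dependent: `χ₁ ^ a * χ₂ ^ b = 1`, `(a, b) ≢ (0, 0) mod r`.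
* `exists_generator`                : all characters unramified outside `p` are powers of ONE
  character `χ₀` (the space of such characters has dimension `≤ 1`).

Inputs from main: `S13.H175.minkowski_character`, `S56.H186.tame_cyclic`, `tame_frobenius`,
`Lib.Cheb.H643.exists_isFrobeniusAt`.
-/

set_option autoImplicit false

namespace Fermat.Agent.S15.H242.BaseE

/-- `ℚ̄` -/
abbrev Qbar : Type := AlgebraicClosure ℚ

/-- `Gal(ℚ̄/ℚ)` -/
abbrev GalQ : Type := Qbar ≃ₐ[ℚ] Qbar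

section Defs

variable {H : Type*} [Monoid H]

/-- `π` factors through a finite level (Prelude shape). -/
def FiniteLevel (π : GalQ →* H) : Prop :=
  ∃ E : IntermediateField ℚ Qbar, FiniteDimensional ℚ E ∧
    ∀ σ : GalQ, (∀ x ∈ E, σ x = x) → π σ = 1

/-- `π` is trivial on the inertia group of ONE valuation subring over `q`. -/
def UnramifiedAtSome (π : GalQ →* H) (q : ℕ) : Prop :=
  ∃ A : ValuationSubring Qbar, A.LiesOverPrime q ∧ ∀ σ ∈ A.inertiaSubgroupIn ℚ, π σ = 1

/-- `π` is unramified (at one place over each prime) outside `p`. -/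
def UnramifiedOutside (π : GalQ →* H) (p : ℕ) : Prop :=
  ∀ q : ℕ, q.Prime → q ≠ p → UnramifiedAtSome π q

/-- Finite level in the finite-set form used by `minkowski_character`. -/
theorem FiniteLevel.exists_finset {π : GalQ →* H} (h : FiniteLevel π) :
    ∃ s : Finset Qbar, ∀ σ : GalQ, (∀ x ∈ s, σ x = x) → π σ = 1 := by
  classical
  obtain ⟨E, hE, hEπ⟩ := h
  let b := Module.finBasis ℚ E
  refine ⟨Finset.univ.image fun i => ((b i : E) : Qbar), fun σ hσ => hEπ σ ?_⟩
  intro x hx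
  have hb : ∀ i, σ ((b i : E) : Qbar) = ((b i : E) : Qbar) := fun i =>
    hσ _ (Finset.mem_image.mpr ⟨i, Finset.mem_univ _, rfl⟩)
  have hrepr := b.sum_repr ⟨x, hx⟩
  have hx' : x = ∑ i, (b.repr ⟨x, hx⟩ i) • ((b i : E) : Qbar) := by
    have := congrArg (fun e : E => (e : Qbar)) hrepr
    simp only [IntermediateField.coe_sum, IntermediateField.coe_smul] at this
    exact this.symm
  rw [hx', map_sum]
  refine Finset.sum_congr rfl fun i _ => ?_
  rw [Algebra.smul_def, map_mul, AlgEquiv.commutes, hb]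

theorem FiniteLevel.comp {H' : Type*} [Monoid H'] {π : GalQ →* H} (h : FiniteLevel π)
    (f : H →* H') : FiniteLevel (f.comp π) := by
  obtain ⟨E, hE, hEπ⟩ := h
  exact ⟨E, hE, fun σ hσ => by simp [hEπ σ hσ]⟩

theorem UnramifiedOutside.comp {H' : Type*} [Monoid H'] {π : GalQ →* H} {p : ℕ}
    (h : UnramifiedOutside π p) (f : H →* H') : UnramifiedOutside (f.comp π) p := by
  intro q hq hqp
  obtain ⟨A, hA, hAπ⟩ := h q hq hqp
  exact ⟨A, hA, fun σ hσ => by simp [hAπ σ hσ]⟩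

theorem FiniteLevel.prod {H' : Type*} [Monoid H'] {π : GalQ →* H} {π' : GalQ →* H'}
    (h : FiniteLevel π) (h' : FiniteLevel π') : FiniteLevel (π.prod π') := by
  obtain ⟨E, hE, hEπ⟩ := h
  obtain ⟨E', hE', hEπ'⟩ := h'
  refine ⟨E ⊔ E', IntermediateField.finiteDimensional_sup E E', fun σ hσ => ?_⟩
  have h1 : π σ = 1 := hEπ σ fun x hx => hσ x ((le_sup_left : E ≤ E ⊔ E') hx)
  have h2 : π' σ = 1 := hEπ' σ fun x hx => hσ x ((le_sup_right : E' ≤ E ⊔ E') hx)
  simp [h1, h2]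

end Defs

section Minkowski

variable {H : Type*} [Group H]

/-- **BASE-e (0).**  A character of finite level which is unramified at (one place over) every
prime is trivial. -/
theorem eq_one_of_unramified (χ : GalQ →* H) (hlev : FiniteLevel χ)
    (hunr : ∀ q : ℕ, q.Prime → UnramifiedAtSome χ q) : ∀ σ, χ σ = 1 :=
  Fermat.Agent.S13.H175.minkowski_character χ hlev.exists_finset hunr

end Minkowski

section Tame

variable {H : Type*} [CommGroup H]

/-- On the inertia group at `p` a character of exponent `r` (`r ≠ p` prime) into a commutative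
group satisfies `χ σ ^ (p - 1) = 1`. -/
theorem pow_pred_eq_one_of_mem_inertia {p r : ℕ} (hp : p.Prime) (hr : r.Prime) (hrp : r ≠ p)
    (χ : GalQ →* H) (hlev : FiniteLevel χ) (hexp : ∀ σ, χ σ ^ r = 1)
    (A : ValuationSubring Qbar) (hA : A.LiesOverPrime p)
    {σ : GalQ} (hσ : σ ∈ A.inertiaSubgroupIn ℚ) : χ σ ^ (p - 1) = 1 := by
  obtain ⟨φ, hφ⟩ := Fermat.Agent.Lib.Cheb.H643.exists_isFrobeniusAt p hp A hA
  have hcop : Nat.Coprime r p := (Nat.coprime_primes hr hp).mpr hrp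
  have hpow : ∀ τ ∈ A.inertiaSubgroupIn ℚ, ∃ a : ℕ, χ τ ^ (r ^ a) = 1 :=
    fun τ _ => ⟨1, by rw [pow_one]; exact hexp τ⟩
  have h := Fermat.Agent.S56.H186.tame_frobenius A χ hA hp hlev hcop hpow hφ hσ
  have h2 : χ (φ * σ * φ⁻¹) = χ σ := by
    rw [map_mul, map_mul, map_inv, mul_comm (χ φ), mul_assoc, mul_inv_cancel, mul_one]
  rw [h2] at h
  have hp1 : p = (p - 1) + 1 := (Nat.succ_pred_eq_of_pos hp.pos).symm
  have h3 : χ σ ^ (p - 1) * χ σ = χ σ := by
    rw [← pow_succ, ← hp1]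
    exact h.symm
  exact mul_eq_right.mp h3

/-- **BASE-e (1).**  If `gcd (r, p - 1) = 1`, a character of exponent `r` unramified outside `p`
is trivial. -/
theorem eq_one_of_unramifiedOutside_of_coprime {p r : ℕ} (hp : p.Prime) (hr : r.Prime)
    (hrp : r ≠ p) (hcop : Nat.Coprime r (p - 1))
    (χ : GalQ →* H) (hlev : FiniteLevel χ) (hexp : ∀ σ, χ σ ^ r = 1)
    (hunr : UnramifiedOutside χ p) : ∀ σ, χ σ = 1 := by
  refine eq_one_of_unramified χ hlev fun q hq => ?_
  by_cases hqp : q = p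
  · subst hqp
    obtain ⟨A, hA⟩ := Fermat.Agent.S54.exists_valuationSubring_liesOver q hq
    refine ⟨A, hA, fun σ hσ => ?_⟩
    have h1 := pow_pred_eq_one_of_mem_inertia hp hr hrp χ hlev hexp A hA hσ
    have h2 := hexp σ
    have h3 : orderOf (χ σ) ∣ Nat.gcd r (q - 1) :=
      Nat.dvd_gcd (orderOf_dvd_of_pow_eq_one h2) (orderOf_dvd_of_pow_eq_one h1)
    rw [Nat.Coprime.gcd_eq_one hcop, Nat.dvd_one] at h3
    exact orderOf_eq_one_iff.mp h3
  · exact hunr q hq hqp

end Tame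

section Dim

variable {H : Type*} [CommGroup H]

/-- The character `σ ↦ χ₁ σ ^ a * χ₂ σ ^ b`. -/
noncomputable def comb (χ₁ χ₂ : GalQ →* H) (a b : ℕ) : GalQ →* H :=
  ((powMonoidHom a).comp χ₁) * ((powMonoidHom b).comp χ₂)

@[simp] theorem comb_apply (χ₁ χ₂ : GalQ →* H) (a b : ℕ) (σ : GalQ) :
    comb χ₁ χ₂ a b σ = χ₁ σ ^ a * χ₂ σ ^ b := rfl

theorem finiteLevel_comb {χ₁ χ₂ : GalQ →* H} (h₁ : FiniteLevel χ₁) (h₂ : FiniteLevel χ₂)
    (a b : ℕ) : FiniteLevel (comb χ₁ χ₂ a b) := by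
  obtain ⟨E, hE, hEπ⟩ := h₁.prod h₂
  refine ⟨E, hE, fun σ hσ => ?_⟩
  have h := hEπ σ hσ
  rw [MonoidHom.prod_apply, Prod.mk_eq_one] at h
  rw [comb_apply, h.1, h.2, one_pow, one_pow, one_mul]

/-- In a group of prime order `r`, two elements satisfy a nontrivial relation
`u ^ a * v ^ b = 1`. -/
theorem exists_rel_of_card_prime {r : ℕ} (hr : r.Prime) [Finite H] (hcard : Nat.card H = r)
    (u v : H) : ∃ a b : ℕ, ¬ (r ∣ a ∧ r ∣ b) ∧ u ^ a * v ^ b = 1 := by
  have : Fact r.Prime := ⟨hr⟩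
  by_cases hu : u = 1
  · exact ⟨1, 0, fun h => hr.one_lt.ne' (Nat.dvd_one.mp h.1), by simp [hu]⟩
  · have hv : v ∈ Subgroup.zpowers u := by
      have := zpowers_eq_top_of_prime_card (G := H) (p := r) hcard hu
      rw [this]
      exact Subgroup.mem_top v
    obtain ⟨k, hk⟩ := (Submonoid.mem_powers_iff v u).mp (mem_powers_iff_mem_zpowers.mpr hv)
    have hur : u ^ r = 1 := by
      rw [← hcard]
      exact pow_card_eq_one'
    -- `v = u ^ k`;  take `a = k * (r - 1)`, `b = 1`:  `u ^ (k (r-1)) * u ^ k = u ^ (k r) = 1`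
    refine ⟨k * (r - 1), 1, fun h => hr.one_lt.ne' (Nat.dvd_one.mp h.2), ?_⟩
    rw [pow_one, ← hk, ← pow_add]
    have : k * (r - 1) + k = k * r := by
      have hr1 : r = (r - 1) + 1 := (Nat.succ_pred_eq_of_pos hr.pos).symm
      conv_rhs => rw [hr1]
      ring
    rw [this, mul_comm, pow_mul, hur, one_pow]

/-- **BASE-e (2): linear dependence.**  `H` of prime order `r ≠ p`.  Two characters of finite
level, unramified outside `p`, satisfy `χ₁ ^ a * χ₂ ^ b = 1` with `(a, b) ≢ (0, 0)` mod `r`. -/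
theorem exists_pow_mul_pow_eq_one {p r : ℕ} (hp : p.Prime) (hr : r.Prime) (hrp : r ≠ p)
    [Finite H] (hcard : Nat.card H = r)
    (χ₁ χ₂ : GalQ →* H) (h₁ : FiniteLevel χ₁) (h₂ : FiniteLevel χ₂)
    (hu₁ : UnramifiedOutside χ₁ p) (hu₂ : UnramifiedOutside χ₂ p) :
    ∃ a b : ℕ, ¬ (r ∣ a ∧ r ∣ b) ∧ ∀ σ, χ₁ σ ^ a * χ₂ σ ^ b = 1 := by
  have hexp : ∀ h : H, h ^ r = 1 := fun h => by
    rw [← hcard]
    exact pow_card_eq_one'
  obtain ⟨A, hA⟩ := Fermat.Agent.S54.exists_valuationSubring_liesOver p hp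
  have hcop : Nat.Coprime r p := (Nat.coprime_primes hr hp).mpr hrp
  -- the image of inertia at `p` in `H × H` is cyclic
  obtain ⟨τ₀, hτ₀, hgen⟩ := Fermat.Agent.S56.H186.tame_cyclic A (χ₁.prod χ₂) hA hp
    (h₁.prod h₂) hcop (fun σ _ => ⟨1, by
      rw [pow_one, MonoidHom.prod_apply, Prod.pow_mk, hexp, hexp]
      rfl⟩)
  obtain ⟨a, b, hab, hrel⟩ := exists_rel_of_card_prime hr hcard (χ₁ τ₀) (χ₂ τ₀)
  refine ⟨a, b, hab, fun σ => ?_⟩
  have key : ∀ σ, comb χ₁ χ₂ a b σ = 1 := by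
    refine eq_one_of_unramified _ (finiteLevel_comb h₁ h₂ a b) fun q hq => ?_
    by_cases hqp : q = p
    · subst hqp
      refine ⟨A, hA, fun σ hσ => ?_⟩
      obtain ⟨j, hj⟩ := hgen σ hσ
      rw [MonoidHom.prod_apply, MonoidHom.prod_apply, Prod.pow_mk, Prod.mk.injEq] at hj
      rw [comb_apply, hj.1, hj.2, ← pow_mul, ← pow_mul, mul_comm j a, mul_comm j b, pow_mul,
        pow_mul, ← mul_pow, hrel, one_pow]
    · -- unramified at `q ≠ p`: the two characters may be unramified at DIFFERENT places over `q`;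
      -- inertia groups over `q` are conjugate and `H` is commutative
      obtain ⟨A₁, hA₁, hχ₁⟩ := hu₁ q hq hqp
      refine ⟨A₁, hA₁, fun σ hσ => ?_⟩
      have h2 : χ₂ σ = 1 := by
        obtain ⟨A₂, hA₂, hχ₂⟩ := hu₂ q hq hqp
        exact Fermat.Agent.Lib.Cheb.H476.map_inertia_eq_one_of_liesOver χ₂ hq hA₂ hA₁ hχ₂ σ hσ
      rw [comb_apply, hχ₁ σ hσ, h2, one_pow, one_pow, one_mul]
  exact key σ

/-- In a group of prime order `r`: if `r ∤ b` then `h ↦ h ^ b` is invertible: there is `c` with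
`(h ^ b) ^ c = h` for all `h`. -/
theorem exists_pow_inverse {r : ℕ} (hr : r.Prime) [Finite H] (hcard : Nat.card H = r)
    {b : ℕ} (hb : ¬ r ∣ b) : ∃ c : ℕ, ∀ h : H, (h ^ b) ^ c = h := by
  have hexp : ∀ h : H, h ^ r = 1 := fun h => by
    rw [← hcard]
    exact pow_card_eq_one'
  have hcop : Nat.Coprime b r := ((Nat.Prime.coprime_iff_not_dvd hr).mpr hb).symm
  obtain ⟨c, -, hc⟩ := Nat.exists_mul_mod_eq_one_of_coprime hcop hr.one_lt
  refine ⟨c, fun h => ?_⟩
  have h1 : b * c = r * (b * c / r) + 1 := by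
    have := Nat.div_add_mod (b * c) r
    omega
  rw [← pow_mul, h1, pow_succ, pow_mul, hexp, one_pow, one_mul]

/-- **BASE-e (3): the space of characters unramified outside `p` has dimension `≤ 1`.**
`H` of prime order `r ≠ p`.  There is ONE character `χ₀` (of finite level, unramified outside `p`)
such that every character of finite level unramified outside `p` is a power of `χ₀`. -/
theorem exists_generator {p r : ℕ} (hp : p.Prime) (hr : r.Prime) (hrp : r ≠ p)
    [Finite H] (hcard : Nat.card H = r) :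
    ∃ χ₀ : GalQ →* H, FiniteLevel χ₀ ∧ UnramifiedOutside χ₀ p ∧
      ∀ χ : GalQ →* H, FiniteLevel χ → UnramifiedOutside χ p →
        ∃ k : ℕ, ∀ σ, χ σ = χ₀ σ ^ k := by
  classical
  have hexp : ∀ h : H, h ^ r = 1 := fun h => by
    rw [← hcard]
    exact pow_card_eq_one'
  by_cases hall : ∀ χ : GalQ →* H, FiniteLevel χ → UnramifiedOutside χ p → ∀ σ, χ σ = 1
  · refine ⟨1, ⟨⊥, inferInstance, fun σ _ => rfl⟩, fun q hq _ => ?_, fun χ hχ hχu => ⟨0, fun σ => ?_⟩⟩
    · obtain ⟨A, hA⟩ := Fermat.Agent.S54.exists_valuationSubring_liesOver q hq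
      exact ⟨A, hA, fun σ _ => rfl⟩
    · rw [pow_zero]
      exact hall χ hχ hχu σ
  · push Not at hall
    obtain ⟨χ₀, h₀, hu₀, σ₀, hσ₀⟩ := hall
    refine ⟨χ₀, h₀, hu₀, fun χ hχ hχu => ?_⟩
    obtain ⟨a, b, hab, hrel⟩ := exists_pow_mul_pow_eq_one hp hr hrp hcard χ₀ χ h₀ hχ hu₀ hχu
    have hb : ¬ r ∣ b := by
      intro hb
      have ha : ¬ r ∣ a := fun ha => hab ⟨ha, hb⟩
      obtain ⟨c, hc⟩ := exists_pow_inverse hr hcard ha
      obtain ⟨m, rfl⟩ := hb
      have h1 := hrel σ₀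
      rw [pow_mul, hexp, one_pow, mul_one] at h1
      have h2 := hc (χ₀ σ₀)
      rw [h1, one_pow] at h2
      exact hσ₀ h2.symm
    obtain ⟨c, hc⟩ := exists_pow_inverse hr hcard hb
    -- `χ ^ b = χ₀ ^ (-a) = χ₀ ^ (a (r - 1))`, so `χ = χ₀ ^ (a (r - 1) c)`
    refine ⟨a * (r - 1) * c, fun σ => ?_⟩
    have h1 : χ σ ^ b = χ₀ σ ^ (a * (r - 1)) := by
      have h2 : χ₀ σ ^ (a * (r - 1)) * χ₀ σ ^ a = 1 := by
        rw [← pow_add]
        have : a * (r - 1) + a = r * a := by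
          have hr1 : r = (r - 1) + 1 := (Nat.succ_pred_eq_of_pos hr.pos).symm
          conv_rhs => rw [hr1]
          ring
        rw [this, pow_mul, hexp, one_pow]
      have h3 := hrel σ
      calc χ σ ^ b = (χ₀ σ ^ (a * (r - 1)) * χ₀ σ ^ a) * χ σ ^ b := by rw [h2, one_mul]
        _ = χ₀ σ ^ (a * (r - 1)) * (χ₀ σ ^ a * χ σ ^ b) := by rw [mul_assoc]
        _ = χ₀ σ ^ (a * (r - 1)) := by rw [h3, mul_one]
    rw [pow_mul, ← h1]
    exact (hc (χ σ)).symm

/-- **BASE-e (4): ramified at `p` or trivial.**  A nontrivial character of exponent `r` and finite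
level, unramified outside `p`, is ramified at EVERY place over `p`. -/
theorem ramified_of_ne_one {p : ℕ} (hp : p.Prime)
    (χ : GalQ →* H) (hlev : FiniteLevel χ) (hunr : UnramifiedOutside χ p)
    {σ₀ : GalQ} (hσ₀ : χ σ₀ ≠ 1) (A : ValuationSubring Qbar) (hA : A.LiesOverPrime p) :
    ∃ σ ∈ A.inertiaSubgroupIn ℚ, χ σ ≠ 1 := by
  by_contra hcon
  push Not at hcon
  refine hσ₀ (eq_one_of_unramified χ hlev (fun q hq => ?_) σ₀)
  by_cases hqp : q = p
  · subst hqp
    exact ⟨A, hA, hcon⟩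
  · exact hunr q hq hqp

end Dim

end Fermat.Agent.S15.H242.BaseE
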