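import Mathlib

/-!
# S15, piece P-LOC (helper242), part 1: the singular point of a nodal Weierstrass cubic

For a Weierstrass cubic `W` over a field (any characteristic) with `Δ = 0` and `c₄ ≠ 0`, the
point `(x₀, y₀)` with

* `x₀ = (18 b₆ - b₂ b₄) / c₄`,
* `y₀ = (b₂ (a₁ a₄ - 2 a₂ a₃) + 3 (a₁ (a₃² - 12 a₆) + 8 a₃ a₄)) / c₄`

lies on `W` and both partial derivatives vanish there.  Moreover for *any* singular point
`(x₀, y₀)` one has `c₄ = (b₂ + 12 x₀)²`.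
-/

set_option autoImplicit false

namespace Fermat.Agent.S15.H242

open WeierstrassCurve WeierstrassCurve.Affine

variable {k : Type*} [Field k] (W : Affine k)

/-- `x`-coordinate of the singular point. -/
noncomputable def singX : k := (18 * W.b₆ - W.b₂ * W.b₄) / W.c₄

/-- `y`-coordinate of the singular point. -/
noncomputable def singY : k :=
  (W.b₂ * (W.a₁ * W.a₄ - 2 * W.a₂ * W.a₃) +
    3 * (W.a₁ * (W.a₃ ^ 2 - 12 * W.a₆) + 8 * W.a₃ * W.a₄)) / W.c₄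

theorem sing_Fy (hc : W.c₄ ≠ 0) : 2 * singY W + W.a₁ * singX W + W.a₃ = 0 := by
  unfold singX singY
  field_simp
  simp only [WeierstrassCurve.c₄, WeierstrassCurve.b₂, WeierstrassCurve.b₄, WeierstrassCurve.b₆]
  ring

theorem sing_Fx (hc : W.c₄ ≠ 0) (hΔ : W.Δ = 0) :
    W.a₁ * singY W - (3 * singX W ^ 2 + 2 * W.a₂ * singX W + W.a₄) = 0 := by
  unfold singX singY
  field_simp
  simp only [WeierstrassCurve.Δ, WeierstrassCurve.b₈] at hΔ
  simp only [WeierstrassCurve.c₄, WeierstrassCurve.b₂, WeierstrassCurve.b₄, WeierstrassCurve.b₆]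
    at hΔ ⊢
  linear_combination 36 * hΔ

theorem sing_F (hc : W.c₄ ≠ 0) (hΔ : W.Δ = 0) : W.Equation (singX W) (singY W) := by
  rw [Affine.equation_iff]
  unfold singX singY
  field_simp
  simp only [WeierstrassCurve.Δ, WeierstrassCurve.b₈] at hΔ
  simp only [WeierstrassCurve.c₄, WeierstrassCurve.b₂, WeierstrassCurve.b₄, WeierstrassCurve.b₆]
    at hΔ ⊢
  linear_combination
    (864 * W.a₆ + 216 * W.a₃ ^ 2 - 288 * W.a₂ * W.a₄ + 64 * W.a₂ ^ 3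
      - 144 * W.a₁ * W.a₂ * W.a₃ - 72 * W.a₁ ^ 2 * W.a₄ + 48 * W.a₁ ^ 2 * W.a₂ ^ 2
      - 36 * W.a₁ ^ 3 * W.a₃ + 12 * W.a₁ ^ 4 * W.a₂ + W.a₁ ^ 6) * hΔ

/-- For any singular point, `c₄ = (b₂ + 12 x₀)²`. -/
theorem c₄_eq_of_singular {x₀ y₀ : k}
    (hFx : W.a₁ * y₀ - (3 * x₀ ^ 2 + 2 * W.a₂ * x₀ + W.a₄) = 0)
    (hFy : 2 * y₀ + W.a₁ * x₀ + W.a₃ = 0) :
    W.c₄ = (W.b₂ + 12 * x₀) ^ 2 := by
  simp only [WeierstrassCurve.c₄, WeierstrassCurve.b₂, WeierstrassCurve.b₄]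
  linear_combination 48 * hFx - 24 * W.a₁ * hFy

end Fermat.Agent.S15.H242
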