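import Fermat.Agent.A2.H528.FrickeGalois
import Fermat.Agent.S24.H902.JBridge
import Fermat.Prelude.Def_ModularCurve_ModularUnit
import Fermat.Prelude.Thm_ModularCurve_coeffMap_qExpand
import Fermat.Prelude.Def_ModularCurve_X0ModL

/-!
# S15 / CUSP, node C9a (helper242): the Fricke involution and the modular unit

`u = Δ(q)/Δ(q^N)` (`ModularCurve.modularUnitSeries N`).  If `u` lies in the function field
`FF N = ℚ̄(X₀(N))`, then the Fricke involution `w_N = A2.H528.wF N` satisfies

  `w_N(u) · u = N ^ 12`.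

Proof: analytic realisation.  `U(τ) = Δ(τ)/Δ(Nτ)` has the `q`-expansion `u`
(`infExp_unitFun`), and `U(-1/(Nτ)) = N¹² / U(τ)` since `Δ` has weight `12`
(`unitFun_fricke`).  Writing `u = r/s` with `r, s ∈ R_N = ℚ̄[j(q^d)]`, the analytic bridge
`toFun` of helper528/helper997 gives `toFun r = U · toFun s`, and the claim follows from
`toFun (w r) = toFun r ∘ fricke` and the injectivity of `toFun`.
-/

set_option autoImplicit false

noncomputable section

open ModularCurve HahnSeries UpperHalfPlane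
open scoped MatrixGroups Real

namespace Fermat.Agent.S15.H242

open Fermat.Agent.S24 Fermat.Agent.S24.H997 Fermat.Agent.A2.H528

local notation "Δ" => ModularForm.discriminant

/-! ### The `q`-expansions of `Δ` and `1/Δ` -/

/-- The complex Laurent series of `Δ`. -/
def deltaC : LaurentSeries ℂ := coeffEmb ℂ deltaSeries

theorem map_dedekindEtaUnitQ :
    PowerSeries.map (algebraMap ℚ ℂ) dedekindEtaUnitQ
      = PowerSeries.map (Int.castRingHom ℂ) dedekindEtaUnit := by
  rw [dedekindEtaUnitQ]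
  ext n
  simp [PowerSeries.coeff_map]

theorem deltaC_eq :
    deltaC = single (1 : ℤ) (1 : ℂ) *
      ofPowerSeries ℤ ℂ (PowerSeries.map (Int.castRingHom ℂ) dedekindEtaUnit) := by
  rw [deltaC, deltaSeries, map_mul, coeffEmb, coeffMap_single, map_one, coeffMap_ofPowerSeries,
    map_dedekindEtaUnitQ]

/-- The complex Laurent series of `1/Δ`. -/
def deltaInvC : LaurentSeries ℂ :=
  single (-1 : ℤ) (1 : ℂ) *
    ofPowerSeries ℤ ℂ (PowerSeries.map (Int.castRingHom ℂ) dedekindEtaUnitInv)

theorem deltaC_mul_deltaInvC : deltaC * deltaInvC = 1 := by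
  rw [deltaC_eq, deltaInvC, mul_mul_mul_comm, single_mul_single, ← map_mul, ← map_mul,
    dedekindEtaUnit_mul_inv]
  simp

theorem deltaC_ne_zero : deltaC ≠ 0 := fun h => by
  have := deltaC_mul_deltaInvC
  rw [h, zero_mul] at this
  exact zero_ne_one this

theorem deltaInvC_eq : deltaInvC = deltaC⁻¹ :=
  eq_inv_of_mul_eq_one_right deltaC_mul_deltaInvC

theorem infZ_one (τ : ℍ) : infZ 1 τ = Function.Periodic.qParam 1 (τ : ℂ) := by
  simp [infZ]

theorem infExp_discriminant : InfExp 1 (fun τ : ℍ => Δ τ) deltaC := by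
  have h : InfPExp 1 (fun τ : ℍ => (∏' n : ℕ, (1 - infZ 1 τ ^ (n + 1))) ^ 24)
      (PowerSeries.map (Int.castRingHom ℂ) dedekindEtaUnit) := fun τ =>
    H902.ev_dedekindEtaUnit (norm_infZ_lt_one 1 τ)
  have h1 := h.infExp 1
  rw [← deltaC_eq] at h1
  refine h1.congr fun τ => ?_
  rw [H902.discriminant_eq_q_mul_eulerFn_pow, zpow_one, infZ_one]

theorem infExp_discriminant_inv : InfExp 1 (fun τ : ℍ => (Δ τ)⁻¹) deltaC⁻¹ := by
  have h : InfPExp 1 (fun τ : ℍ => ((∏' n : ℕ, (1 - infZ 1 τ ^ (n + 1))) ^ 24)⁻¹)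
      (PowerSeries.map (Int.castRingHom ℂ) dedekindEtaUnitInv) := fun τ =>
    H902.ev_dedekindEtaUnitInv (norm_infZ_lt_one 1 τ)
  have h1 := h.infExp (-1)
  rw [← deltaInvC, deltaInvC_eq] at h1
  refine h1.congr fun τ => ?_
  rw [H902.discriminant_eq_q_mul_eulerFn_pow, zpow_neg_one, infZ_one, mul_inv]

/-! ### The analytic modular unit -/

variable (N : ℕ) [NeZero N]

/-- `U(τ) = Δ(τ) / Δ(Nτ)`. -/
def unitFun (τ : ℍ) : ℂ := Δ τ * (Δ (infAff N 0 1 τ))⁻¹

/-- The complex Laurent series of the modular unit. -/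
def unitC : LaurentSeries ℂ := coeffEmb ℂ (modularUnitSeries N)

theorem unitC_eq : unitC N = deltaC * qExpand ℂ N deltaC⁻¹ := by
  rw [unitC, modularUnitSeries, map_mul, map_inv₀, deltaSeriesN, coeffEmb, coeffMap_qExpand,
    map_inv₀]
  rfl

theorem infExp_unitFun : InfExp 1 (unitFun N) (unitC N) := by
  have hN : 0 < N := Nat.pos_of_ne_zero (NeZero.ne N)
  have h2 := infExp_discriminant_inv.comp_infAff (M := 1) (N := 1) (a := N) (d := 1) (e := N)
    0 hN one_pos one_pos one_pos (by ring)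
  rw [infRoot_zero, infTwist_one] at h2
  rw [unitC_eq]
  exact infExp_discriminant.mul h2

/-- the expansion in the variable `exp(2πiτ/N)` -/
theorem infExp_unitFun_level : InfExp N (unitFun N) (qExpand ℂ N (unitC N)) := by
  have hN : 0 < N := Nat.pos_of_ne_zero (NeZero.ne N)
  have h := (infExp_unitFun N).comp_infAff (M := 1) (N := N) (a := 1) (d := 1) (e := N)
    0 one_pos one_pos one_pos hN (by ring)
  rw [infRoot_zero, infTwist_one] at h
  refine h.congr fun τ => ?_
  rw [infAff_one_zero_one]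

theorem discriminant_ne_zero' (τ : ℍ) : Δ τ ≠ 0 := ModularForm.discriminant_ne_zero τ

omit [NeZero N] in
theorem unitFun_ne_zero (τ : ℍ) : unitFun N τ ≠ 0 :=
  mul_ne_zero (discriminant_ne_zero' τ) (inv_ne_zero (discriminant_ne_zero' _))

/-! ### The Fricke transformation of the unit -/

theorem infAff_fricke (τ : ℍ) : infAff N 0 1 (fricke N τ) = ModularGroup.S • τ := by
  have hN : 0 < N := Nat.pos_of_ne_zero (NeZero.ne N)
  apply UpperHalfPlane.ext
  rw [infAff_coe hN one_pos, fricke_coe, UpperHalfPlane.modular_S_smul]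
  show _ = (-(τ : ℂ))⁻¹
  have hNc : (N : ℂ) ≠ 0 := by exact_mod_cast hN.ne'
  have hτ : (τ : ℂ) ≠ 0 := UpperHalfPlane.ne_zero τ
  simp only [Int.cast_zero, add_zero, Nat.cast_one, div_one]
  field_simp

theorem unitFun_fricke (τ : ℍ) :
    unitFun N (fricke N τ) = (N : ℂ) ^ 12 * (unitFun N τ)⁻¹ := by
  have hN : 0 < N := Nat.pos_of_ne_zero (NeZero.ne N)
  have hNc : (N : ℂ) ≠ 0 := by exact_mod_cast hN.ne'
  have hτ : (τ : ℂ) ≠ 0 := UpperHalfPlane.ne_zero τ
  have h1 : Δ (fricke N τ) = ((N : ℂ) * τ) ^ 12 * Δ (infAff N 0 1 τ) := by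
    rw [fricke, JFun.discriminant_smul, ModularGroup.denom_S, infAff_coe hN one_pos]
    simp only [Int.cast_zero, add_zero, Nat.cast_one, div_one]
    norm_cast
  have h2 : Δ (infAff N 0 1 (fricke N τ)) = (τ : ℂ) ^ 12 * Δ τ := by
    rw [infAff_fricke, JFun.discriminant_smul, ModularGroup.denom_S]
    norm_cast
  have hΔ := discriminant_ne_zero' τ
  have hΔ' := discriminant_ne_zero' (infAff N 0 1 τ)
  rw [unitFun, unitFun, h1, h2]
  field_simp

/-! ### The algebraic statement -/

/-- the analytic function of an element of `R_N` has the expected expansion -/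
theorem infExp_toFun (r : RN N) :
    InfExp N (toFun N r) (qExpand ℂ N (coeffMap ιK (r : LaurentSeries Kbar))) := by
  have h := expInf_spec (holToExp N ((holBase N).bridge r))
  have h2 : expInf N (holToExp N ((holBase N).bridge r))
      = qExpand ℂ N (coeffMap ιK (r : LaurentSeries Kbar)) :=
    (holBase N).qexp_bridge r
  rw [h2] at h
  exact h

theorem coeffMap_ιK_coeffEmb (x : LaurentSeries ℚ) :
    coeffMap ιK (coeffEmb Kbar x) = coeffEmb ℂ x := by
  rw [coeffEmb, coeffMap_coeffMap, coeffEmb]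
  refine coeffMap_congr (RingHom.ext fun c => ?_) x
  exact ιK_algebraMap c

/-- **C9a (core).**  If the modular unit `u = Δ(q)/Δ(q^N)` lies in `ℚ̄(X₀(N))`, then
`w_N(u) · u = N¹²`. -/
theorem wF_mul_self_of_coe_eq (u : FF N)
    (hu : (u : LaurentSeries Kbar) = coeffEmb Kbar (modularUnitSeries N)) :
    wF N u * u = algebraMap Kbar (FF N) ((N : Kbar) ^ 12) := by
  obtain ⟨r, s, hs, hrs⟩ := exists_div_inclRN N u
  have hs' : inclRN N s ≠ 0 := fun h => hs ((inclRN_injective N) (by rw [h, map_zero]))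
  -- in Laurent series: `r = u * s`
  have hL : (r : LaurentSeries Kbar) = coeffEmb Kbar (modularUnitSeries N)
      * (s : LaurentSeries Kbar) := by
    have h1 : inclRN N r = u * inclRN N s := by
      rw [hrs, div_mul_cancel₀ _ hs']
    have h2 := congrArg (fun f : FF N => (f : LaurentSeries Kbar)) h1
    rw [← hu]
    exact h2
  -- analytic: `toFun r = U * toFun s`
  have hA : toFun N r = fun τ => unitFun N τ * toFun N s τ := by
    have e1 := infExp_toFun N r
    have e2 := (infExp_unitFun_level N).mul (infExp_toFun N s)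
    rw [hL, map_mul, map_mul, coeffMap_ιK_coeffEmb] at e1
    exact e1.fun_unique e2
  -- apply the Fricke map
  have hB : toFun N (wR N r) = fun τ => (N : ℂ) ^ 12 * (unitFun N τ)⁻¹ * toFun N (wR N s) τ := by
    rw [toFun_wR, toFun_wR, hA]
    funext τ
    simp only [compW_apply]
    rw [unitFun_fricke]
  have hC : toFun N (r * wR N r)
      = toFun N (algebraMap Kbar (RN N) ((N : Kbar) ^ 12) * (s * wR N s)) := by
    rw [map_mul, map_mul, map_mul, toFun_algebraMap, hB, hA]
    funext τ
    have hU := unitFun_ne_zero N τ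
    show unitFun N τ * toFun N s τ * ((N : ℂ) ^ 12 * (unitFun N τ)⁻¹ * toFun N (wR N s) τ)
      = ιK ((N : Kbar) ^ 12) * (toFun N s τ * toFun N (wR N s) τ)
    rw [map_pow, map_natCast]
    field_simp
  have hD : r * wR N r = algebraMap Kbar (RN N) ((N : Kbar) ^ 12) * (s * wR N s) :=
    toFun_injective N hC
  have hws : inclRN N (wR N s) ≠ 0 := fun h =>
    hs ((wR_injective N) ((inclRN_injective N) (by rw [h, map_zero, map_zero])))
  have hE := congrArg (inclRN N) hD
  rw [map_mul, map_mul, map_mul, AlgHom.commutes] at hE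
  rw [hrs, wF_apply, map_div₀, wFHom_inclRN, wFHom_inclRN, div_mul_div_comm,
    div_eq_iff (mul_ne_zero hws hs')]
  rw [mul_comm (inclRN N (wR N r)) (inclRN N r), hE]
  ring

end Fermat.Agent.S15.H242
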