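import Fermat.Agent.S15.H242.OggFricke
import Fermat.Agent.S28.H589.UnitGood
import Fermat.Agent.S24.Deg.H457_Degree
import Fermat.Agent.S24.Mod

/-!
# S15 / CUSP, node K2 (helper242): the modular unit lies in the function field of `X₀(N)`

`unitSeries_mem : coeffEmb ℚ̄ (modularUnitSeries N) ∈ modularFunctionFieldBar N`  (any `N ≥ 1`).

Route (degree count).  Let `w = N¹² Δ(q^N)/Δ(q)`; its analytic function is a good function of
level `N` (helper589, row S28), so by helper648's conjugate product every element of the algebra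
`ℂ[j(q^d), w]` is a root of a monic polynomial of degree `n = [SL₂(ℤ) : Γ₀(N)]` over `ℂ[j]`.
By helper457's descent every element of the field `F(w)`, `F = ℚ̄(X₀(N))`, is algebraic of degree
`≤ n` over `ℚ̄(j)`; hence `[F(w) : ℚ̄(j)] ≤ n = [F : ℚ̄(j)]` (`ModularPackage.finrank_eq`), so
`w ∈ F`, and `Δ(q)/Δ(q^N) = N¹² / w ∈ F`.
-/

set_option autoImplicit false

noncomputable section

open ModularCurve HahnSeries UpperHalfPlane Polynomial IntermediateField
open scoped MatrixGroups Real Manifold Modular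

namespace Fermat.Agent.S15.H242

open Fermat.Agent.S24 Fermat.Agent.S24.Deg457

/-! ### The series `w = N¹² Δ(q^N)/Δ(q)` -/

/-- `N¹² Δ(q^N)/Δ(q)` over `ℚ`. -/
def unitW (N : ℕ) [NeZero N] : LaurentSeries ℚ :=
  HahnSeries.C ((N : ℚ) ^ 12) * (deltaSeriesN N * deltaSeries⁻¹)

theorem unitW_mul_modularUnitSeries (N : ℕ) [NeZero N] :
    unitW N * modularUnitSeries N = HahnSeries.C ((N : ℚ) ^ 12) := by
  rw [unitW, modularUnitSeries, mul_assoc]
  have h1 : deltaSeriesN N * deltaSeries⁻¹ * (deltaSeries * (deltaSeriesN N)⁻¹) = 1 := by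
    have h := deltaSeries_ne_zero
    have h' := deltaSeriesN_ne_zero N
    field_simp
  rw [h1, mul_one]

section General

variable (K : Type*) [Field K] [Algebra ℚ K] (N : ℕ) [NeZero N]

/-- `w` over `K`. -/
def wK : LaurentSeries K := coeffEmb K (unitW N)

/-- the generators `j(q^d)`, `d ∣ N`, together with `w` -/
def gensU : Set (LaurentSeries K) := gens K N ∪ {wK K N}

/-- the `K`-algebra generated by the `j(q^d)` and `w` -/
def AKU : Subalgebra K (LaurentSeries K) := Algebra.adjoin K (gensU K N)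

theorem JK_mem_AKU : JK K ∈ AKU K N :=
  Algebra.subset_adjoin (Or.inl (JK_mem_gens K N))

variable {K N}

theorem eval₂_mem_of_mem {A : Subalgebra K (LaurentSeries K)} (hJ : JK K ∈ A) (Q : K[X][X])
    {s : LaurentSeries K} (hs : s ∈ A) : Q.eval₂ (evJ (JK K)) s ∈ A := by
  rw [eval₂_eq_sum_range]
  refine Subalgebra.sum_mem _ fun i _ => ?_
  refine Subalgebra.mul_mem _ ?_ (Subalgebra.pow_mem _ hs _)
  rw [evJ_apply, aeval_def, eval₂_eq_sum_range]
  refine Subalgebra.sum_mem _ fun k _ => ?_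
  exact Subalgebra.mul_mem _ (Subalgebra.algebraMap_mem _ _) (Subalgebra.pow_mem _ hJ _)

/-- a nonzero algebraic element of `A` has an "inverse up to a polynomial in `j`" in `A`
(helper457's `exists_mul_eq_aeval`, for any subalgebra containing `j`). -/
theorem exists_mul_eq_aeval_of_mem {A : Subalgebra K (LaurentSeries K)} (hJ : JK K ∈ A) {n : ℕ}
    {s : LaurentSeries K} (hs : s ∈ A) (hs0 : s ≠ 0) (ha : AlgDeg K n s) :
    ∃ g ∈ A, ∃ t : K[X], t ≠ 0 ∧ s * g = aeval (JK K) t := by
  obtain ⟨Q, hQ0, -, hQ⟩ := ha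
  have key : ∀ m : ℕ, ∀ Q : K[X][X], Q.natDegree ≤ m → Q ≠ 0 → Q.eval₂ (evJ (JK K)) s = 0 →
      ∃ Q₁ : K[X][X], Q₁.coeff 0 ≠ 0 ∧ Q₁.eval₂ (evJ (JK K)) s = 0 := by
    intro m
    induction m with
    | zero =>
      intro Q hdeg hQ0 hQ
      refine ⟨Q, ?_, hQ⟩
      intro h0
      apply hQ0
      rw [eq_C_of_natDegree_le_zero hdeg, h0, map_zero]
    | succ m ih =>
      intro Q hdeg hQ0 hQ
      by_cases h0 : Q.coeff 0 = 0
      · have hdiv : Q = divX Q * X := by
          conv_lhs => rw [← divX_mul_X_add Q, h0, map_zero, add_zero]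
        have hd0 : divX Q ≠ 0 := by
          intro h; apply hQ0; rw [hdiv, h, zero_mul]
        have hev : (divX Q).eval₂ (evJ (JK K)) s = 0 := by
          rw [hdiv, eval₂_mul, eval₂_X] at hQ
          rcases mul_eq_zero.mp hQ with h | h
          · exact h
          · exact absurd h hs0
        refine ih (divX Q) ?_ hd0 hev
        rw [natDegree_divX_eq_natDegree_tsub_one]
        omega
      · exact ⟨Q, h0, hQ⟩
  obtain ⟨Q₁, h0, hQ₁⟩ := key Q.natDegree Q le_rfl hQ0 hQ
  refine ⟨-(divX Q₁).eval₂ (evJ (JK K)) s, Subalgebra.neg_mem _ (eval₂_mem_of_mem hJ _ hs),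
    Q₁.coeff 0, h0, ?_⟩
  have hsplit : Q₁.eval₂ (evJ (JK K)) s
      = (divX Q₁).eval₂ (evJ (JK K)) s * s + aeval (JK K) (Q₁.coeff 0) := by
    conv_lhs => rw [← divX_mul_X_add Q₁]
    rw [eval₂_add, eval₂_mul, eval₂_X, eval₂_C, evJ_apply]
  rw [hQ₁] at hsplit
  linear_combination hsplit

end General

/-! ### The analytic input over `ℂ` -/

section Complex

variable (N : ℕ) [NeZero N]

theorem npos : 0 < N := Nat.pos_of_ne_zero (NeZero.ne N)

theorem wK_complex_eq :
    wK ℂ N = HahnSeries.C ((N : ℂ) ^ 12) * (qExpand ℂ N deltaC * deltaC⁻¹) := by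
  rw [wK, unitW, map_mul, map_mul, map_inv₀, deltaSeriesN, coeffEmb, coeffMap_qExpand]
  congr 1
  show coeffMap (algebraMap ℚ ℂ) (HahnSeries.single 0 ((N : ℚ) ^ 12))
    = HahnSeries.single 0 ((N : ℂ) ^ 12)
  rw [coeffMap_single, map_pow, map_natCast]

/-- the analytic function of `w`, in the `InfExp` language -/
theorem infExp_unitW :
    InfExp 1 (fun τ : ℍ => (N : ℂ) ^ 12 * (ModularForm.discriminant (infAff N 0 1 τ)
      * (ModularForm.discriminant τ)⁻¹)) (wK ℂ N) := by
  have hN := npos N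
  have h1 := infExp_discriminant.comp_infAff (M := 1) (N := 1) (a := N) (d := 1) (e := N)
    0 hN one_pos one_pos one_pos (by ring)
  rw [infRoot_zero, infTwist_one] at h1
  rw [wK_complex_eq]
  exact (InfExp.const ((N : ℂ) ^ 12)).mul (h1.mul infExp_discriminant_inv)

theorem unitFun589_eq (τ : ℍ) :
    Fermat.Agent.S28.H589.unitFun N (npos N) τ
      = (N : ℂ) ^ 12 * (ModularForm.discriminant (infAff N 0 1 τ)
        * (ModularForm.discriminant τ)⁻¹) := by
  have h : Fermat.Agent.S28.H589.scaleH N (npos N) τ = infAff N 0 1 τ := by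
    apply UpperHalfPlane.ext
    rw [infAff_coe (npos N) one_pos]
    show (N : ℂ) * (τ : ℂ) = _
    simp
  rw [Fermat.Agent.S28.H589.unitFun, h, mul_assoc]

/-- the analytic function of `w` is good and has `q`-expansion `w`. -/
theorem hasQExp_unitW :
    H708.HasQExp 1 (Fermat.Agent.S28.H589.unitFun N (npos N)) (wK ℂ N) := by
  refine H708.HasQExp.of_hasSum (Fermat.Agent.S28.H589.mdifferentiable_unitFun N (npos N)) ?_
  intro τ
  have h := infExp_unitW N τ
  rw [unitFun589_eq]
  exact h

/-- every element of `ℂ[j(q^d), w]` is the `q`-expansion of a good function. -/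
theorem exists_goodRing_hasQExp_U {b : LaurentSeries ℂ} (hb : b ∈ AKU ℂ N) :
    ∃ f : ℍ → ℂ, f ∈ H648.goodRing N ∧ H708.HasQExp 1 f b := by
  have hJfd : ∃ C : ℝ, ∀ τ : ℍ, τ ∈ 𝒟 → ‖JFun.jFun τ‖ ≤ C * Real.exp (2 * π * τ.im) := by
    rw [jFun_eq_H648]
    exact H648.jFun_bound_fd
  unfold AKU at hb
  induction hb using Algebra.adjoin_induction with
  | mem x hx =>
    rcases hx with hx | hx
    · exact exists_goodRing_hasQExp N hJfd (Algebra.subset_adjoin hx)
    · rw [Set.mem_singleton_iff] at hx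
      subst hx
      exact ⟨_, Fermat.Agent.S28.H589.unitFun_mem_goodRing N (npos N), hasQExp_unitW N⟩
  | algebraMap c =>
    refine ⟨fun _ => c, (H648.goodRing N).algebraMap_mem c, ?_⟩
    have : algebraMap ℂ (LaurentSeries ℂ) c = HahnSeries.C c := by
      rw [algebraMap_laurentSeries_eq_single]; rfl
    rw [this]
    exact H708.HasQExp.const 1 c
  | add x y _ _ hx hy =>
    obtain ⟨f, hf, hfx⟩ := hx
    obtain ⟨g, hg, hgy⟩ := hy
    exact ⟨f + g, (H648.goodRing N).add_mem hf hg, hfx.add hgy⟩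
  | mul x y _ _ hx hy =>
    obtain ⟨f, hf, hfx⟩ := hx
    obtain ⟨g, hg, hgy⟩ := hy
    exact ⟨f * g, (H648.goodRing N).mul_mem hf hg, hfx.mul hgy⟩

/-- **The interface hypothesis for the bigger algebra.** -/
theorem hyp_complex_U {b : LaurentSeries ℂ} (hb : b ∈ AKU ℂ N) :
    ∃ P : ℂ[X][X], P.Monic ∧ P.natDegree = Nat.card (XX N) ∧ P.eval₂ (evJ (JK ℂ)) b = 0 := by
  obtain ⟨f, hf, hfb⟩ := exists_goodRing_hasQExp_U N hb
  have : Finite (SL(2, ℤ) ⧸ CongruenceSubgroup.Gamma0 N) := inferInstanceAs (Finite (XX N))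
  let _ : Fintype (SL(2, ℤ) ⧸ CongruenceSubgroup.Gamma0 N) := Fintype.ofFinite _
  obtain ⟨P, hPm, hPn, hP⟩ := H648.exists_charPoly_jFun_eval_eq_zero (N := N) hf
  refine ⟨P, hPm, ?_, ?_⟩
  · rw [hPn, Nat.card_eq_fintype_card]
  · have h1 := hasQExp_eval₂ P hfb
    rw [h1.eq_zero_iff]
    funext τ
    exact hP τ

end Complex

/-! ### Descent to `K` and the field generated -/

section Descent

variable {K : Type*} [Field K] [Algebra ℚ K] (N : ℕ) [NeZero N]

theorem coeffMap_wK (ι : K →+* ℂ) : coeffMap ι (wK K N) = wK ℂ N :=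
  coeffMap_coeffEmb' ι (unitW N)

theorem coeffMap_mem_AKU (ι : K →+* ℂ) {a : LaurentSeries K} (ha : a ∈ AKU K N) :
    coeffMap ι a ∈ AKU ℂ N := by
  unfold AKU at ha
  induction ha using Algebra.adjoin_induction with
  | mem x hx =>
    rcases hx with hx | hx
    · obtain ⟨y, hy, rfl⟩ := hx
      rw [coeffMap_coeffEmb']
      exact Algebra.subset_adjoin (Or.inl ⟨y, hy, rfl⟩)
    · rw [Set.mem_singleton_iff] at hx
      subst hx
      rw [coeffMap_wK]
      exact Algebra.subset_adjoin (Or.inr rfl)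
  | algebraMap r =>
    rw [coeffMap_algebraMap']
    exact Subalgebra.algebraMap_mem _ _
  | add x y _ _ hx hy =>
    rw [map_add]; exact Subalgebra.add_mem _ hx hy
  | mul x y _ _ hx hy =>
    rw [map_mul]; exact Subalgebra.mul_mem _ hx hy

theorem algDeg_of_mem_AKU (ι : K →+* ℂ) {a : LaurentSeries K} (ha : a ∈ AKU K N) :
    AlgDeg K (Nat.card (XX N)) a := by
  obtain ⟨P, hP, hn, h0⟩ := hyp_complex_U N (coeffMap_mem_AKU N ι ha)
  rw [← coeffMap_JK ι] at h0
  exact exists_relation_of_coeffMap_monic ι (JK K) a _ P hP hn h0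

/-- every element of the field `K(j(q^d), w)` is algebraic of degree `≤ n` over `K[j]`. -/
theorem algDeg_of_mem_adjoin_gensU (ι : K →+* ℂ) {x : LaurentSeries K}
    (hx : x ∈ IntermediateField.adjoin K (gensU K N)) : AlgDeg K (Nat.card (XX N)) x := by
  rw [IntermediateField.mem_adjoin_iff_div] at hx
  obtain ⟨r, hr, s, hs, rfl⟩ := hx
  have hr' : r ∈ AKU K N := hr
  have hs' : s ∈ AKU K N := hs
  by_cases hs0 : s = 0
  · subst hs0
    rw [div_zero]
    exact algDeg_of_mem_AKU N ι (Subalgebra.zero_mem _)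
  · obtain ⟨g, hg, t, ht, hst⟩ := exists_mul_eq_aeval_of_mem (JK_mem_AKU K N) hs' hs0
      (algDeg_of_mem_AKU N ι hs')
    refine AlgDeg.of_mul_eq (a := r * g) ht ?_
      (algDeg_of_mem_AKU N ι (Subalgebra.mul_mem _ hr' hg))
    rw [← hst]
    field_simp

end Descent

/-! ### An abstract degree lemma -/

/-- Let `k ⊆ F ⊆ L` be fields of characteristic zero with `[F : k] = n` finite.  If every element
of `F(x)` is algebraic of degree `≤ n` over `k`, then `x ∈ F`. -/
theorem mem_range_of_forall_natDegree_le {k F L : Type*} [Field k] [Field F] [Field L]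
    [Algebra k F] [Algebra F L] [Algebra k L] [IsScalarTower k F L] [CharZero k]
    [FiniteDimensional k F] (x : L)
    (h : ∀ y ∈ F⟮x⟯, IsIntegral k y ∧ (minpoly k y).natDegree ≤ Module.finrank k F) :
    x ∈ (algebraMap F L).range := by
  set n := Module.finrank k F with hn
  have hT : IsScalarTower k F⟮x⟯ L := IsScalarTower.of_algebraMap_eq (fun c => rfl)
  have hE : ∀ y : F⟮x⟯, IsIntegral k y ∧ (minpoly k y).natDegree ≤ n := by
    intro y
    obtain ⟨h1, h2⟩ := h (y : L) y.2
    have hinj : Function.Injective (algebraMap F⟮x⟯ L) := (algebraMap F⟮x⟯ L).injective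
    refine ⟨(isIntegral_algebraMap_iff hinj).mp h1, ?_⟩
    have := minpoly.algebraMap_eq hinj (A := k) y
    rw [← this]
    exact h2
  obtain ⟨hfd, hle⟩ := finiteDimensional_and_finrank_le_of_forall_natDegree_minpoly_le n hE
  have htower : Module.finrank k F * Module.finrank F F⟮x⟯ = Module.finrank k F⟮x⟯ :=
    Module.finrank_mul_finrank k F F⟮x⟯
  have hnpos : 0 < n := Module.finrank_pos
  have hfd' : FiniteDimensional F F⟮x⟯ := Module.Finite.right k F F⟮x⟯
  have hpos : 0 < Module.finrank F F⟮x⟯ := Module.finrank_pos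
  have hone : Module.finrank F F⟮x⟯ = 1 := by
    rw [← hn] at htower
    have : n * Module.finrank F F⟮x⟯ ≤ n * 1 := by rw [htower, mul_one]; exact hle
    have := Nat.le_of_mul_le_mul_left this hnpos
    omega
  have hbot : F⟮x⟯ = ⊥ := IntermediateField.finrank_eq_one_iff.mp hone
  have hx : x ∈ F⟮x⟯ := IntermediateField.mem_adjoin_simple_self F x
  rw [hbot, IntermediateField.mem_bot] at hx
  obtain ⟨y, hy⟩ := hx
  exact ⟨y, hy⟩

/-! ### The final statements -/

section Final

variable (N : ℕ) [NeZero N]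

omit [NeZero N] in
theorem adjoin_FF_le (x : LaurentSeries Kbar) :
    (IntermediateField.adjoin (FF N) {x}).restrictScalars Kbar
      ≤ IntermediateField.adjoin Kbar (gens Kbar N ∪ {x}) := by
  have h1 : modularFunctionFieldBar N ≤ IntermediateField.adjoin Kbar (gens Kbar N ∪ {x}) :=
    (laurentBaseChange_full_le (K := Kbar) N).trans
      (IntermediateField.adjoin.mono Kbar _ _ Set.subset_union_left)
  intro y hy
  have hy' : y ∈ IntermediateField.adjoin (FF N) {x} := hy
  induction hy' using IntermediateField.adjoin_induction with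
  | mem z hz =>
    rw [Set.mem_singleton_iff] at hz
    subst hz
    exact IntermediateField.subset_adjoin Kbar _ (Or.inr rfl)
  | algebraMap c => exact h1 c.2
  | add a b _ _ ha hb => exact add_mem (ha (by assumption)) (hb (by assumption))
  | inv a _ ha => exact inv_mem (ha (by assumption))
  | mul a b _ _ ha hb => exact mul_mem (ha (by assumption)) (hb (by assumption))

set_option synthInstance.maxHeartbeats 400000 in
set_option maxHeartbeats 1000000 in
/-- **`w = N¹² Δ(q^N)/Δ(q)` is a modular function of level `N`.** -/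
theorem wK_mem : wK Kbar N ∈ modularFunctionFieldBar N := by
  have hT := IsScalarTower.of_algebraMap_eq (R := Kbar)
      (S := ↥(IntermediateField.adjoin Kbar {jF N})) (A := LaurentSeries Kbar) (fun c => rfl)
  have hfd : FiniteDimensional ↥(IntermediateField.adjoin Kbar {jF N}) (FF N) :=
    (degree_fields N).1
  have hfin : Module.finrank ↥(IntermediateField.adjoin Kbar {jF N}) (FF N)
      = Nat.card (XX N) := (nonempty_modularPackage N).some.finrank_eq
  have key := mem_range_of_forall_natDegree_le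
    (k := ↥(IntermediateField.adjoin Kbar {jF N})) (F := FF N) (L := LaurentSeries Kbar)
    (wK Kbar N) ?_
  · obtain ⟨y, hy⟩ := key
    rw [← hy]
    exact y.2
  · intro y hy
    rw [hfin]
    have hy' : y ∈ IntermediateField.adjoin Kbar (gensU Kbar N) :=
      adjoin_FF_le N (wK Kbar N) hy
    obtain ⟨Q, hQ0, hQn, hQ⟩ := algDeg_of_mem_adjoin_gensU N iotaC hy'
    refine isIntegral_and_natDegree_le_of_relation (K := Kbar)
      (AdjoinSimple.gen Kbar (jF N)) ?_ y Q hQ0 _ hQn ?_
    · intro t ht h0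
      apply aeval_JK_ne_zero Kbar ht
      have h1 := congrArg (algebraMap ↥(IntermediateField.adjoin Kbar {jF N}) (FF N)) h0
      rw [← aeval_algebraMap_apply, map_zero, AdjoinSimple.algebraMap_gen] at h1
      have h2 := congrArg (algebraMap (FF N) (LaurentSeries Kbar)) h1
      rw [← aeval_algebraMap_apply, map_zero] at h2
      exact h2
    · have hcomp : ((aeval (algebraMap ↥(IntermediateField.adjoin Kbar {jF N})
          (LaurentSeries Kbar) (AdjoinSimple.gen Kbar (jF N))) :
            Kbar[X] →ₐ[Kbar] LaurentSeries Kbar).toRingHom) = evJ (JK Kbar) := rfl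
      rw [hcomp]
      exact hQ

/-- **K2.** The modular unit `Δ(q)/Δ(q^N)` is a modular function of level `N`. -/
theorem unitSeries_mem :
    coeffEmb Kbar (modularUnitSeries N) ∈ modularFunctionFieldBar N := by
  have h := congrArg (coeffEmb Kbar) (unitW_mul_modularUnitSeries N)
  rw [map_mul] at h
  have hw0 : coeffEmb Kbar (unitW N) ≠ 0 := by
    intro h0
    rw [h0, zero_mul] at h
    have h1 : (HahnSeries.C ((N : ℚ) ^ 12) : LaurentSeries ℚ) = 0 :=
      (coeffEmb Kbar).injective (by rw [← h, map_zero])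
    have h2 := congrArg (fun x : LaurentSeries ℚ => x.coeff 0) h1
    simp only [HahnSeries.coeff_zero] at h2
    have h3 : (HahnSeries.C ((N : ℚ) ^ 12) : LaurentSeries ℚ).coeff 0 = (N : ℚ) ^ 12 := by
      show (HahnSeries.single 0 ((N : ℚ) ^ 12)).coeff 0 = _
      exact HahnSeries.coeff_single_same 0 _
    rw [h3] at h2
    exact pow_ne_zero 12 (by exact_mod_cast NeZero.ne N) h2
  have hu : coeffEmb Kbar (modularUnitSeries N)
      = coeffEmb Kbar (HahnSeries.C ((N : ℚ) ^ 12)) * (coeffEmb Kbar (unitW N))⁻¹ := by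
    rw [← h, mul_comm (coeffEmb Kbar (unitW N)), mul_inv_cancel_right₀ hw0]
  rw [hu]
  refine mul_mem ?_ (inv_mem (wK_mem N))
  have hC : coeffEmb Kbar (HahnSeries.C ((N : ℚ) ^ 12))
      = algebraMap Kbar (LaurentSeries Kbar) ((N : Kbar) ^ 12) := by
    rw [algebraMap_laurentSeries_eq_single]
    show coeffMap (algebraMap ℚ Kbar) (HahnSeries.single 0 ((N : ℚ) ^ 12)) = _
    rw [coeffMap_single, map_pow, map_natCast]
  rw [hC]
  exact IntermediateField.algebraMap_mem _ _

end Final

end Fermat.Agent.S15.H242
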